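import Fermat.Agent.LR.DualThree
import Fermat.Agent.BAD.Ihara.Module
import Mathlib.RingTheory.Finiteness.Nakayama
import Mathlib.LinearAlgebra.Dual.Lemmas

/-!
# The dual of Ihara's lemma

If the two degeneracy maps into level `L q` are injective after localisation at an eigensystem,
the two traces out of level `L q` are surjective after localisation.
-/

set_option autoImplicit false

open CongruenceSubgroup MvPolynomial
open scoped MatrixGroups OnePoint
open ModularGroup

noncomputable section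

namespace FermatAgent.HM.Dual

open FermatAgent.BAD.Ihara

section Scalar

variable {k : Type} [CommRing k] {L M : ℕ} {ι κ : Type} {pr : κ → HPrime L} (f : ι → κ)

/-- The polynomials act on an eigenvector through their values. -/
lemma rename_smul_of_eigen (c : ι → k) (x : TrivH1 k M pr k)
    (hx : ∀ i, (MvPolynomial.X (f i) : MvPolynomial κ k) • x = c i • x) (s : MvPolynomial ι k) :
    rename f s • x = aeval c s • x := by
  induction s using MvPolynomial.induction_on with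
  | C a => rw [rename_C, C_smul_eq, aeval_C]; rfl
  | add s t hs ht => rw [map_add, add_smul, hs, ht, map_add, add_smul]
  | mul_X s i hs =>
    rw [map_mul, rename_X, mul_smul, hx, map_mul, aeval_X]
    rw [show rename f s • c i • x = c i • rename f s • x from smul_comm _ _ _, hs, smul_smul,
      mul_comm]

end Scalar

variable {k : Type} [Field k] {L : ℕ} {D : ALData} {hqL : D.q.Coprime L} {ι : Type}
  {pr : ι → HPrime L}

local notation "cor₁" => D.corMod (1 : (ZMod 1)ˣ →* k) (one_dvd D.L) hqL pr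
local notation "cw₁" => D.cwMod (1 : (ZMod 1)ˣ →* k) (one_dvd D.L) hqL pr
local notation "ofHom" => LinearEquiv.symm (trivHom k D.L (D.extPr hqL pr) k)

lemma mat_eq_wSL_mul : D.mat = ((D.wSL : SL(2, ℤ)) : Mat2) * D.diagQ := by
  ext i j
  fin_cases i <;> fin_cases j <;>
    simp [ALData.mat, ALData.wSL, ALData.diagQ, ALData.N, Matrix.mul_apply, Fin.sum_univ_two]

/-- An eigen functional on level `L` is one of the Hecke correspondence on homomorphisms. -/
private lemma functional_homOp_hecke (φ : Low k D hqL pr →ₗ[k] k) (o : Option ι) (a : k)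
    (hX : ∀ z, φ ((MvPolynomial.X o : MvPolynomial (Option ι) k) • z) = a * φ z)
    (g : Additive (Gamma0 D.L) →+ k) :
    haveI : Fact (D.extPr hqL pr o).1.1.Prime := ⟨(D.extPr hqL pr o).1.2⟩
    φ (ofHom ((heckeCorr (N := 1) (L := L) (one_dvd D.L) (D.extPr hqL pr o).2).homOp g)) =
      a * φ (ofHom g) := by
  have : Fact (D.extPr hqL pr o).1.1.Prime := ⟨(D.extPr hqL pr o).1.2⟩
  set e := trivHom k D.L (D.extPr hqL pr) k with he
  rw [← hX (e.symm g)]
  refine congrArg φ (e.injective ?_)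
  rw [he, trivHom_X (R := k) (M := D.L) (X := k) (D.extPr hqL pr) o, ← he, e.apply_symm_apply,
    e.apply_symm_apply]

/-- The symbol of an eigen functional is a Hecke eigensymbol. -/
private lemma sum_hRep_symbol (φ : Low k D hqL pr →ₗ[k] k) (o : Option ι) (a : k)
    (hgood : ¬ ((D.extPr hqL pr o).1.1 : ℕ) ∣ D.L)
    (hX : ∀ z, φ ((MvPolynomial.X o : MvPolynomial (Option ι) k) • z) = a * φ z) (u v : V2) :
    haveI : Fact (D.extPr hqL pr o).1.1.Prime := ⟨(D.extPr hqL pr o).1.2⟩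
    ∑ j, φ (ofHom (cuspHom (Gamma0 D.L) k
        ((hRep D.L (D.extPr hqL pr o).1.1 j).mulVec u)
        ((hRep D.L (D.extPr hqL pr o).1.1 j).mulVec v))) =
      a * φ (ofHom (cuspHom (Gamma0 D.L) k u v)) := by
  have : Fact (D.extPr hqL pr o).1.1.Prime := ⟨(D.extPr hqL pr o).1.2⟩
  rw [← functional_homOp_hecke φ o a hX, homOp_hecke_cuspHom (k := k) (one_dvd D.L)
    (D.extPr hqL pr o).2 hgood u v, map_sum, map_sum]

/-- Vanishing on traces, as a relation on pairs of cusps. -/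
private lemma trace_relation (φ₁ φ₂ : Low k D hqL pr →ₗ[k] k)
    (hker : ∀ w, φ₁ (cor₁ w) + φ₂ (cw₁ w) = 0) (u v : V2) :
    φ₁ (ofHom (cuspHom (Gamma0 D.L) k u v)) +
      φ₂ (ofHom (cuspHom (Gamma0 D.L) k (D.mat.mulVec u) (D.mat.mulVec v))) = 0 := by
  set e := trivHom k D.L (D.extPr hqL pr) k with he
  set w := (trivHom k D.N (D.extPr hqL pr) k).symm (cuspHom (Gamma0 D.N) k u v)
  have h1 : e (cor₁ w) = cuspHom (Gamma0 D.L) k u v := by
    rw [he, trivHom_cor, LinearEquiv.apply_symm_apply, homOp_cor_cuspHom]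
  have h4 : e (cw₁ w) = cuspHom (Gamma0 D.L) k (D.mat.mulVec u) (D.mat.mulVec v) := by
    rw [he, ALData.cwMod, LinearMap.comp_apply, trivHom_cor, trivHom_w,
      LinearEquiv.apply_symm_apply, homOp_w_cuspHom, homOp_cor_cuspHom]
  rw [← h1, ← h4, LinearEquiv.symm_apply_apply, LinearEquiv.symm_apply_apply]
  exact hker w

/-- The class of a Hecke eigensymbol is an eigenclass. -/
private lemma X_smul_cls {a : V2 → V2 → k} (s : IsSymbol (Gamma0 D.L) a) (o : Option ι) (b : k)
    (ha : haveI : Fact (D.extPr hqL pr o).1.1.Prime := ⟨(D.extPr hqL pr o).1.2⟩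
      ∀ u v : V2, ∑ j, a ((hRep D.L (D.extPr hqL pr o).1.1 j).mulVec u)
        ((hRep D.L (D.extPr hqL pr o).1.1 j).mulVec v) = b * a u v) :
    (MvPolynomial.X o : MvPolynomial (Option ι) k) • ofHom s.cls = b • ofHom s.cls := by
  have : Fact (D.extPr hqL pr o).1.1.Prime := ⟨(D.extPr hqL pr o).1.2⟩
  set e := trivHom k D.L (D.extPr hqL pr) k with he
  refine e.injective ?_
  rw [_root_.map_smul e b, he, trivHom_X (R := k) (M := D.L) (X := k) (D.extPr hqL pr) o,
    show trivHom k D.L (D.extPr hqL pr) k (e.symm s.cls) = s.cls from e.apply_symm_apply _]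
  refine AddMonoidHom.ext fun γ => ?_
  obtain ⟨γ, rfl⟩ := Additive.ofMul.surjective γ
  rw [AddMonoidHom.smul_apply, smul_eq_mul, s.cls_apply IsSymbol.infVec_ne_zero γ]
  exact (s.homOp_cls (heckeCorr (N := 1) (L := L) (one_dvd D.L) (D.extPr hqL pr o).2)
    IsSymbol.infVec_ne_zero γ).trans (ha _ _)

/-- Symbols related through the Atkin-Lehner matrix have classes killed by the degeneracy pair. -/
private lemma pairDeg_cls_eq_zero {a₁ a₂ : V2 → V2 → k} (s₁ : IsSymbol (Gamma0 D.L) a₁)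
    (s₂ : IsSymbol (Gamma0 D.L) a₂)
    (hrel : ∀ u v, a₁ u v + a₂ (D.mat.mulVec u) (D.mat.mulVec v) = 0) :
    pairDeg D hqL pr (ofHom s₂.cls, ofHom s₁.cls) = 0 := by
  refine (trivHom k D.N (D.extPr hqL pr) k).map_eq_zero_iff.mp ?_
  refine AddMonoidHom.ext fun γ => ?_
  obtain ⟨γ, rfl⟩ := Additive.ofMul.surjective γ
  set γ' := (D.diagCorr (L := L) (one_dvd D.L) hqL).fac γ ()
  have hγ' : D.diagQ * ((γ : SL(2, ℤ)) : Mat2) = ((γ' : SL(2, ℤ)) : Mat2) * D.diagQ :=
    (D.diagCorr (L := L) (one_dvd D.L) hqL).fac_spec γ ()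
  rw [pairDeg, map_add, AddMonoidHom.add_apply, trivHom_resMod, trivHom_degMod _ γ γ' hγ',
    AddMonoidHom.zero_apply]
  simp only [LinearEquiv.apply_symm_apply]
  set x := IsSymbol.infVec
  have hx : x ≠ 0 := IsSymbol.infVec_ne_zero
  set d : V2 := D.diagQ.mulVec x
  have hd : d ≠ 0 := mulVec_ne_zero (by rw [D.det_diagQ]; exact D.q_ne_zero) hx
  have hr := hrel (D.mat.mulVec x) (D.mat.mulVec (((γ : SL(2, ℤ)) : Mat2).mulVec x))
  have h1 : a₁ (D.mat.mulVec x) (D.mat.mulVec (((γ : SL(2, ℤ)) : Mat2).mulVec x)) =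
      s₁.cls (Additive.ofMul γ') := by
    rw [s₁.cls_apply hd γ', mat_eq_wSL_mul, Matrix.mulVec_mulVec, mul_assoc, hγ',
      ← Matrix.mulVec_mulVec, ← Matrix.mulVec_mulVec, ← Matrix.mulVec_mulVec]
    exact s₁.mulVec D.wSL d (((γ' : SL(2, ℤ)) : Mat2).mulVec d)
  have h4 : a₂ (D.mat.mulVec (D.mat.mulVec x))
      (D.mat.mulVec (D.mat.mulVec (((γ : SL(2, ℤ)) : Mat2).mulVec x))) =
      s₂.cls (Additive.ofMul ⟨γ.1, D.gamma0_le γ.2⟩) := by
    rw [s₂.cls_apply hx]
    rw [Matrix.mulVec_mulVec x D.mat D.mat, Matrix.mulVec_mulVec _ D.mat D.mat, D.mat_sq,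
      Matrix.smul_mulVec, Matrix.smul_mulVec]
    exact (s₂.smul D.q_ne_zero D.q_ne_zero _ _).trans
      (s₂.mulVec ⟨D.sqSL, D.gamma0_le D.sqSL_mem⟩ x _)
  rw [h1, h4] at hr
  exact (add_comm _ _).trans hr

/-- A boundary symbol vanishes at an eigenvalue other than `p + 1`, for `p ≡ 1` modulo the
level. -/
private lemma symbol_eq_zero_of_eigen (o : Option ι) (hgood : ¬ ((D.extPr hqL pr o).1.1 : ℕ) ∣ D.L)
    (ho : (((D.extPr hqL pr o).1.1 : ℕ) : ZMod D.L) = 1) {b : k}
    (hb : b ≠ ((D.extPr hqL pr o).1.1 : ℕ) + 1) {a : V2 → V2 → k}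
    (s : IsSymbol (Gamma0 D.L) a) (hs : s.cls = 0)
    (ha : haveI : Fact (D.extPr hqL pr o).1.1.Prime := ⟨(D.extPr hqL pr o).1.2⟩
      ∀ u v : V2, ∑ j, a ((hRep D.L (D.extPr hqL pr o).1.1 j).mulVec u)
        ((hRep D.L (D.extPr hqL pr o).1.1 j).mulVec v) = b * a u v)
    (u v : V2) (hu : u ≠ 0) (hv : v ≠ 0) : a u v = 0 := by
  have : Fact (D.extPr hqL pr o).1.1.Prime := ⟨(D.extPr hqL pr o).1.2⟩
  obtain ⟨fb, hf, hfs, hfa⟩ := s.exists_boundary hs
  have h1 : ∀ j, a ((hRep D.L (D.extPr hqL pr o).1.1 j).mulVec u)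
      ((hRep D.L (D.extPr hqL pr o).1.1 j).mulVec v) = a u v := fun j => by
    have hj : (hRep D.L (D.extPr hqL pr o).1.1 j).det ≠ 0 := by
      rw [det_hRep]; exact_mod_cast (D.extPr hqL pr o).1.2.ne_zero
    rw [hfa (mulVec_ne_zero hj hu) (mulVec_ne_zero hj hv), cuspFun_hRep ho hf hfs j hu,
      cuspFun_hRep ho hf hfs j hv, hfa hu hv]
  have h4 := ha u v
  rw [Finset.sum_congr rfl fun j _ => h1 j, Finset.sum_const, Finset.card_univ,
    card_hIdx hgood, nsmul_eq_mul, Nat.cast_add, Nat.cast_one] at h4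
  exact (mul_eq_mul_right_iff.mp h4.symm).resolve_left hb

/-- **A functional on two copies of level `L` killed by the eigensystem and vanishing on traces
is zero.** -/
theorem functional_pair_eq_zero (h2 : (2 : k) ≠ 0)
    (hgood : ∀ i, ¬ ((D.extPr hqL pr (some i)).1.1 : ℕ) ∣ D.L) (c : ι → k) (i₀ : ι)
    (hi₀ : (((D.extPr hqL pr (some i₀)).1.1 : ℕ) : ZMod D.L) = 1)
    (hne₀ : c i₀ ≠ ((D.extPr hqL pr (some i₀)).1.1 : ℕ) + 1)
    (hinj : ∀ z : Low k D hqL pr × Low k D hqL pr, pairDeg D hqL pr z = 0 →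
      ∃ s : MvPolynomial ι k, s ∉ eigIdeal c ∧ rename some s • z = 0)
    (φ₁ φ₂ : Low k D hqL pr →ₗ[k] k)
    (hX₁ : ∀ (i : ι) z, φ₁ ((MvPolynomial.X (some i) : MvPolynomial (Option ι) k) • z) = c i * φ₁ z)
    (hX₂ : ∀ (i : ι) z,
      φ₂ ((MvPolynomial.X (some i) : MvPolynomial (Option ι) k) • z) = c i * φ₂ z)
    (hker : ∀ w, φ₁ (cor₁ w) + φ₂ (cw₁ w) = 0) :
    φ₁ = 0 ∧ φ₂ = 0 := by
  set e := trivHom k D.L (D.extPr hqL pr) k with he
  let ψ₁ : (Additive (Gamma0 D.L) →+ k) →ₗ[k] k := φ₁.comp e.symm.toLinearMap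
  let ψ₂ : (Additive (Gamma0 D.L) →+ k) →ₗ[k] k := φ₂.comp e.symm.toLinearMap
  have s₁ := isSymbol_functional ψ₁
  have s₂ := isSymbol_functional ψ₂
  have eig₁ := fun i => sum_hRep_symbol φ₁ (some i) (c i) (hgood i) (hX₁ i)
  have eig₂ := fun i => sum_hRep_symbol φ₂ (some i) (c i) (hgood i) (hX₂ i)
  -- their classes are killed by an element outside the eigen ideal
  obtain ⟨t, ht, ht0⟩ := hinj _
    (pairDeg_cls_eq_zero (hqL := hqL) (pr := pr) s₁ s₂ (trace_relation φ₁ φ₂ hker))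
  have ht' : (MvPolynomial.aeval c t : k) ≠ 0 := fun h =>
    ht (by simpa [eigIdeal, RingHom.mem_ker] using h)
  rw [Prod.ext_iff] at ht0
  simp only [Prod.smul_fst, Prod.smul_snd, Prod.fst_zero, Prod.snd_zero] at ht0
  rw [rename_smul_of_eigen some c _ (fun i => X_smul_cls s₂ (some i) (c i) (eig₂ i)) t,
    rename_smul_of_eigen some c _ (fun i => X_smul_cls s₁ (some i) (c i) (eig₁ i)) t,
    smul_eq_zero_iff_right ht', smul_eq_zero_iff_right ht', LinearEquiv.map_eq_zero_iff,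
    LinearEquiv.map_eq_zero_iff] at ht0
  -- so they are boundaries, killed off the Eisenstein systems
  have : Fact (D.extPr hqL pr (some i₀)).1.1.Prime := ⟨(D.extPr hqL pr (some i₀)).1.2⟩
  have fin : ∀ ψ : (Additive (Gamma0 D.L) →+ k) →ₗ[k] k,
      (∀ u v, u ≠ 0 → v ≠ 0 → ψ (cuspHom (Gamma0 D.L) k u v) = 0) →
      (∀ φ, ψ ((heckeCorr (N := 1) (L := L) (one_dvd D.L) (D.extPr hqL pr (some i₀)).2).homOp φ) =
        c i₀ * ψ φ) → ψ = 0 := fun ψ h hT =>
    LR.functional_eq_zero_of_hecke h2 (one_dvd D.L) (D.extPr hqL pr (some i₀)).2 (hgood i₀) ψ h hT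
      hne₀
  have f₁ := fin ψ₁ (symbol_eq_zero_of_eigen _ (hgood i₀) hi₀ hne₀ s₁ ht0.2 (eig₁ i₀))
    (functional_homOp_hecke φ₁ _ _ (hX₁ i₀))
  have f₂ := fin ψ₂ (symbol_eq_zero_of_eigen _ (hgood i₀) hi₀ hne₀ s₂ ht0.1 (eig₂ i₀))
    (functional_homOp_hecke φ₂ _ _ (hX₂ i₀))
  constructor
  · refine LinearMap.ext fun z => ?_
    simpa [ψ₁, e] using LinearMap.congr_fun f₁ (e z)
  · refine LinearMap.ext fun z => ?_
    simpa [ψ₂, e] using LinearMap.congr_fun f₂ (e z)

variable [Finite k]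

omit [Finite k] in
/-- The pairs of traces are stable under the polynomials in the variables away from `q`. -/
private lemma exists_trace_rename (hne : ∀ i, ((pr i).1.1 : ℕ) ≠ D.q)
    (t : MvPolynomial ι k) (y : Low k D hqL pr × Low k D hqL pr)
    (hy : ∃ w, (cor₁ w, cw₁ w) = y) :
    ∃ w, (cor₁ w, cw₁ w) = rename some t • y := by
  induction t using MvPolynomial.induction_on generalizing y with
  | C r =>
    obtain ⟨w, rfl⟩ := hy
    exact ⟨r • w, by rw [rename_C, Prod.smul_mk, C_smul_eq, C_smul_eq, _root_.map_smul,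
      _root_.map_smul]⟩
  | add t t' ht ht' =>
    obtain ⟨w, hw⟩ := ht _ hy
    obtain ⟨w', hw'⟩ := ht' _ hy
    exact ⟨w + w', by rw [map_add, map_add, map_add, add_smul, ← hw, ← hw', Prod.mk_add_mk]⟩
  | mul_X t i ht =>
    obtain ⟨w, rfl⟩ := hy
    rw [map_mul, rename_X, mul_smul]
    exact ht _ ⟨_, Prod.ext (D.corMod_X_some hne i w) (D.cwMod_X_some hne i w)⟩

/-- If no multiple of `x` by a polynomial outside the eigen ideal is a pair of traces, some
nonzero functional on pairs is an eigen functional for `c` and kills all pairs of traces. -/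
private lemma exists_functional
    (hne : ∀ i, ((pr i).1.1 : ℕ) ≠ D.q) (c : ι → k) (x : Low k D hqL pr × Low k D hqL pr)
    (hcon : ∀ s : MvPolynomial ι k, s ∉ eigIdeal c →
      ∀ w, cor₁ w = rename some s • x.1 → cw₁ w ≠ rename some s • x.2) :
    ∃ φ : Low k D hqL pr × Low k D hqL pr →ₗ[k] k, φ ≠ 0 ∧
      (∀ (i : ι) z,
        φ ((MvPolynomial.X (some i) : MvPolynomial (Option ι) k) • z) = c i * φ z) ∧
      ∀ w, φ (cor₁ w, cw₁ w) = 0 := by
  let : Module (MvPolynomial ι k) (Low k D hqL pr) :=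
    Module.compHom _ (rename (some : ι → Option ι) : MvPolynomial ι k →ₐ[k] _).toRingHom
  let cor := D.corMod (1 : (ZMod 1)ˣ →* k) (one_dvd D.L) hqL pr (X := k)
  let cw := D.cwMod (1 : (ZMod 1)ˣ →* k) (one_dvd D.L) hqL pr (X := k)
  -- the image as a Hecke submodule
  let P : Submodule (MvPolynomial ι k) (Low k D hqL pr × Low k D hqL pr) :=
    { carrier := {y | ∃ w, (cor w, cw w) = y}
      zero_mem' := ⟨0, by simp [cor, cw]⟩
      add_mem' := by
        rintro _ _ ⟨w, rfl⟩ ⟨w', rfl⟩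
        exact ⟨w + w', by simp⟩
      smul_mem' := by
        intro t y hy
        show ∃ w, (cor w, cw w) = rename some t • y
        exact exists_trace_rename hne t y hy }
  let Coker := (Low k D hqL pr × Low k D hqL pr) ⧸ P
  have : Finite (Low k D hqL pr) := finite_low
  set 𝔪 := eigIdeal c
  -- Nakayama
  have hlt : 𝔪 • (⊤ : Submodule (MvPolynomial ι k) Coker) ≠ ⊤ := fun htop => by
    have : Finite Coker := Finite.of_surjective _ (Submodule.Quotient.mk_surjective P)
    obtain ⟨r, hr, hr0⟩ := Submodule.exists_sub_one_mem_and_smul_eq_zero_of_fg_of_le_smul 𝔪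
      (⊤ : Submodule (MvPolynomial ι k) Coker) Module.Finite.fg_top htop.ge
    have h1 := hr0 (Submodule.Quotient.mk x) trivial
    rw [← Submodule.Quotient.mk_smul, Submodule.Quotient.mk_eq_zero] at h1
    obtain ⟨w, hw⟩ := h1
    have hr' : r ∉ 𝔪 := fun h => (eigIdeal_maximal c).ne_top
      ((Ideal.eq_top_iff_one _).mpr (by simpa using sub_mem h hr))
    exact hcon r hr' w (congrArg Prod.fst hw) (congrArg Prod.snd hw)
  obtain ⟨y, hy⟩ : ∃ y, y ∉ (𝔪 • (⊤ : Submodule (MvPolynomial ι k) Coker)).comap P.mkQ := by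
    by_contra hall
    push Not at hall
    refine hlt (eq_top_iff.mpr fun z _ => ?_)
    obtain ⟨z, rfl⟩ := Submodule.mkQ_surjective P z
    exact hall z
  -- a functional killed by the ideal
  let Q : Submodule k (Low k D hqL pr × Low k D hqL pr) :=
    { carrier := ((𝔪 • (⊤ : Submodule (MvPolynomial ι k) Coker)).comap P.mkQ : Set _)
      zero_mem' := Submodule.zero_mem _
      add_mem' := Submodule.add_mem _
      smul_mem' := fun r z hz => by
        have := ((𝔪 • (⊤ : Submodule (MvPolynomial ι k) Coker)).comap P.mkQ).smul_mem (C r) hz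
        rw [show (C r : MvPolynomial ι k) • z = r • z from by
          show rename (some : ι → Option ι) (C r) • z = r • z
          rw [rename_C]; exact Prod.ext (C_smul_eq ..) (C_smul_eq ..)] at this
        exact this }
  obtain ⟨φ, hφy, hφQ⟩ := Submodule.exists_dual_map_eq_bot_of_notMem (p := Q) hy inferInstance
  have hQ : ∀ z ∈ Q, φ z = 0 := fun z hz => by
    have : φ z ∈ Q.map φ := Submodule.mem_map_of_mem hz
    rwa [hφQ, Submodule.mem_bot] at this
  have hX : ∀ (i : ι) z,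
      φ ((MvPolynomial.X (some i) : MvPolynomial (Option ι) k) • z) = c i * φ z := fun i z => by
    have hm : (MvPolynomial.X i - MvPolynomial.C (c i) : MvPolynomial ι k) ∈ 𝔪 := by
      simp [𝔪, eigIdeal, RingHom.mem_ker]
    have hren : ∀ (t : MvPolynomial ι k) (z : Low k D hqL pr × Low k D hqL pr),
        t • z = rename some t • z := fun t z => rfl
    have h1 : (MvPolynomial.X (some i) - MvPolynomial.C (c i) : MvPolynomial (Option ι) k)
        • z ∈ Q :=
      by
      show _ ∈ (𝔪 • (⊤ : Submodule (MvPolynomial ι k) Coker)).comap P.mkQ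
      have h4 : (MvPolynomial.X (some i) - MvPolynomial.C (c i) : MvPolynomial (Option ι) k) • z =
          (MvPolynomial.X i - MvPolynomial.C (c i) : MvPolynomial ι k) • z := by
        rw [hren, map_sub, rename_X, rename_C]
      rw [Submodule.mem_comap, h4, LinearMap.map_smul]
      exact Submodule.smul_mem_smul hm trivial
    have h4 := hQ _ h1
    rwa [sub_smul, show (MvPolynomial.C (c i) : MvPolynomial (Option ι) k) • z = c i • z from
      Prod.ext (C_smul_eq ..) (C_smul_eq ..), map_sub, LinearMap.map_smul φ (c i), smul_eq_mul,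
      sub_eq_zero] at h4
  refine ⟨φ, fun h => hφy (by rw [h, LinearMap.zero_apply]), hX, fun w => hQ _ ?_⟩
  show _ ∈ (𝔪 • (⊤ : Submodule (MvPolynomial ι k) Coker)).comap P.mkQ
  rw [Submodule.mem_comap, Submodule.mkQ_apply,
    (Submodule.Quotient.mk_eq_zero P (x := _)).mpr ⟨w, rfl⟩]
  exact Submodule.zero_mem _

/-- **Dual Ihara lemma.** If the degeneracy maps are injective at an eigensystem, the traces
`(cor, cor ∘ W)` are surjective there. -/
theorem dual_pairDeg (h2 : (2 : k) ≠ 0)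
    (hne : ∀ i, ((pr i).1.1 : ℕ) ≠ D.q) (hgood : ∀ i, ¬ ((pr i).1.1 : ℕ) ∣ D.L) (c : ι → k)
    (i₀ : ι) (hi₀ : (((pr i₀).1.1 : ℕ) : ZMod D.L) = 1)
    (hne₀ : c i₀ ≠ ((pr i₀).1.1 : ℕ) + 1)
    (hinj : ∀ z : Low k D hqL pr × Low k D hqL pr, pairDeg D hqL pr z = 0 →
      ∃ s : MvPolynomial ι k, s ∉ eigIdeal c ∧ rename some s • z = 0)
    (x : Low k D hqL pr × Low k D hqL pr) :
    ∃ s : MvPolynomial ι k, s ∉ eigIdeal c ∧
      ∃ w, cor₁ w = rename some s • x.1 ∧ cw₁ w = rename some s • x.2 := by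
  by_contra hcon
  push Not at hcon
  obtain ⟨φ, hφ, hX, hker⟩ := exists_functional hne c x hcon
  obtain ⟨e1, e2⟩ := functional_pair_eq_zero h2 hgood c i₀ hi₀ hne₀ hinj
    (φ.comp (LinearMap.inl k _ _)) (φ.comp (LinearMap.inr k _ _))
    (fun i z => by
      have := hX i (z, 0)
      simpa [Prod.smul_mk] using this)
    (fun i z => by
      have := hX i (0, z)
      simpa [Prod.smul_mk] using this)
    (fun w => by
      rw [LinearMap.comp_apply, LinearMap.comp_apply, ← map_add]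
      simpa using hker w)
  exact hφ (LinearMap.prod_ext e1 e2)

end FermatAgent.HM.Dual
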