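import Fermat.Agent.HM.Dual.Sign
import Mathlib.Algebra.Module.Basic
import Mathlib.Algebra.Field.Basic

/-!
# The homomorphism of a pair of cusps

For a subgroup `Γ` of `SL(2, ℤ)` and two cusps, the count with signs of the translates of their
geodesic crossed on the way from `i` to `γ i` is a homomorphism on `Γ`. It is additive in the
cusps and invariant under `Γ`.
-/

set_option autoImplicit false

noncomputable section

open scoped MatrixGroups

namespace FermatAgent.HM.Dual

variable (Γ : Subgroup SL(2, ℤ))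

/-- The signed count of the translates of a pair between two positions. -/
def flow (u v : V2) (P P' : Mat2) : ℤ :=
  ∑ᶠ g : Γ, (sTerm P' u v (g : SL(2, ℤ)) - sTerm P u v (g : SL(2, ℤ)))

variable {Γ}

/-- Two positions of positive determinant differ in sign on finitely many elements of `Γ` only. -/
lemma finite_flow (u v : V2) {P P' : Mat2} (hP : 0 < P.det) (hP' : 0 < P'.det) :
    (Function.support fun g : Γ =>
      sTerm P' u v (g : SL(2, ℤ)) - sTerm P u v (g : SL(2, ℤ))).Finite :=
  (finite_sTerm_sub u v hP hP').preimage Subtype.val_injective.injOn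

/-- The counts along three positions add up. -/
lemma flow_trans (u v : V2) {P P' P'' : Mat2} (hP : 0 < P.det) (hP' : 0 < P'.det)
    (hP'' : 0 < P''.det) : flow Γ u v P P' + flow Γ u v P' P'' = flow Γ u v P P'' := by
  rw [flow, flow, flow, ← finsum_add_distrib (finite_flow u v hP hP') (finite_flow u v hP' hP'')]
  exact finsum_congr fun g => by ring

/-- Exchanging the two positions negates the count. -/
lemma flow_swap_pos (u v : V2) (P P' : Mat2) : flow Γ u v P' P = -flow Γ u v P P' := by
  rw [flow, flow, ← finsum_neg_distrib]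
  exact finsum_congr fun g => by ring

/-- The count is invariant under right translation of both positions by an element of `Γ`. -/
lemma flow_mul (u v : V2) (P P' : Mat2) (e : Γ) :
    flow Γ u v (P * ((e : SL(2, ℤ)) : Mat2)) (P' * ((e : SL(2, ℤ)) : Mat2)) = flow Γ u v P P' := by
  rw [flow, flow, ← finsum_comp_equiv (Equiv.mulLeft e)
    (f := fun g : Γ => sTerm P' u v (g : SL(2, ℤ)) - sTerm P u v (g : SL(2, ℤ)))]
  exact finsum_congr fun g => by simp [sTerm_mul_left]

lemma flow_mulVec (u v : V2) (P P' : Mat2) (e : Γ) :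
    flow Γ (((e : SL(2, ℤ)) : Mat2).mulVec u) (((e : SL(2, ℤ)) : Mat2).mulVec v) P P' =
      flow Γ u v P P' := by
  rw [flow, flow, ← finsum_comp_equiv (Equiv.mulRight e)
    (f := fun g : Γ => sTerm P' u v (g : SL(2, ℤ)) - sTerm P u v (g : SL(2, ℤ)))]
  exact finsum_congr fun g => by simp [sTerm_mul_right]

lemma flow_smul {a b : ℤ} (ha : a ≠ 0) (hb : b ≠ 0) (u v : V2) (P P' : Mat2) :
    flow Γ (a • u) (b • v) P P' = flow Γ u v P P' :=
  finsum_congr fun g => by rw [sTerm_smul ha hb, sTerm_smul ha hb]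

lemma flow_swap (u v : V2) (P P' : Mat2) : flow Γ v u P P' = -flow Γ u v P P' := by
  rw [flow, flow, ← finsum_neg_distrib]
  exact finsum_congr fun g => by rw [sTerm_swap P u v, sTerm_swap P' u v]; ring

/-- Around a triangle the counts from `i` to a translate add up to zero. -/
lemma flow_triangle {u v w : V2} (hu : u ≠ 0) (hv : v ≠ 0) (hw : w ≠ 0) (e : Γ) :
    flow Γ u v 1 ((e : SL(2, ℤ)) : Mat2) + flow Γ v w 1 ((e : SL(2, ℤ)) : Mat2) +
      flow Γ w u 1 ((e : SL(2, ℤ)) : Mat2) = 0 := by
  have h1 : (0 : ℤ) < (1 : Mat2).det := by simp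
  have he : (0 : ℤ) < ((e : SL(2, ℤ)) : Mat2).det := by simp
  let F : Γ → ℤ := fun g => sTerm 1 u v (g : SL(2, ℤ)) + sTerm 1 v w (g : SL(2, ℤ)) +
    sTerm 1 w u (g : SL(2, ℤ)) - triConst u v w
  have hF : (Function.support F).Finite :=
    (finite_triangle hu hv hw h1).preimage Subtype.val_injective.injOn
  have hFe : (Function.support fun g => F (e * g)).Finite :=
    hF.preimage (mul_right_injective e).injOn
  calc _ = ∑ᶠ g : Γ, (F (e * g) - F g) := by
        rw [flow, flow, flow, ← finsum_add_distrib (finite_flow u v h1 he) (finite_flow v w h1 he),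
          ← finsum_add_distrib ((finite_flow u v h1 he).union (finite_flow v w h1 he) |>.subset
            (Function.support_add _ _)) (finite_flow w u h1 he)]
        exact finsum_congr fun g => by simp [F, sTerm_mul_left]; ring
    _ = 0 := by
        rw [finsum_sub_distrib hFe hF, sub_eq_zero]
        exact finsum_comp_equiv (Equiv.mulLeft e) (f := F)

/-- An element of `SL(2, ℤ)` has positive determinant as an integer matrix. -/
lemma det_coe_pos (g : SL(2, ℤ)) : (0 : ℤ) < (g : Mat2).det := g.det_coe.symm ▸ zero_lt_one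

variable (Γ) (k : Type*) [Field k]

/-- The integral homomorphism of a pair of cusps. -/
def flowHom (u v : V2) : Additive Γ →+ ℤ where
  toFun γ := flow Γ u v 1 ((((Additive.toMul γ)⁻¹ : Γ) : SL(2, ℤ)) : Mat2)
  map_zero' := by simp [flow]
  map_add' := fun γ δ => by
    rw [toMul_add]
    set a := Additive.toMul γ
    set b := Additive.toMul δ
    rw [← flow_mul u v 1 (((b⁻¹ : Γ) : SL(2, ℤ)) : Mat2) a⁻¹, one_mul,
      flow_trans u v (by simp) (det_coe_pos _)
      (by rw [Matrix.det_mul]; exact mul_pos (det_coe_pos _) (det_coe_pos _)), mul_inv_rev]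
    simp

/-- The homomorphism of a pair of cusps. -/
def cuspHom (u v : V2) : Additive Γ →+ k :=
  (AddMonoidHom.mulLeft (4 : k)⁻¹).comp ((Int.castAddHom k).comp (flowHom Γ u v))

variable {Γ k}

/-- The homomorphism of a pair of cusps at `γ` is a quarter of the count between the positions
`1` and `γ⁻¹`. -/
lemma cuspHom_apply (u v : V2) (γ : Γ) :
    cuspHom Γ k u v (Additive.ofMul γ) =
      (4 : k)⁻¹ * (flow Γ u v 1 (((γ⁻¹ : Γ) : SL(2, ℤ)) : Mat2) : ℤ) := rfl

lemma cuspHom_mulVec (u v : V2) (e : Γ) :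
    cuspHom Γ k (((e : SL(2, ℤ)) : Mat2).mulVec u) (((e : SL(2, ℤ)) : Mat2).mulVec v) =
      cuspHom Γ k u v := by
  refine AddMonoidHom.ext fun γ => ?_
  obtain ⟨γ, rfl⟩ := Additive.ofMul.surjective γ
  rw [cuspHom_apply, cuspHom_apply, flow_mulVec]

lemma cuspHom_smul {a b : ℤ} (ha : a ≠ 0) (hb : b ≠ 0) (u v : V2) :
    cuspHom Γ k (a • u) (b • v) = cuspHom Γ k u v := by
  refine AddMonoidHom.ext fun γ => ?_
  obtain ⟨γ, rfl⟩ := Additive.ofMul.surjective γ
  rw [cuspHom_apply, cuspHom_apply, flow_smul ha hb]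

/-- The homomorphism of a pair of cusps is additive at a common cusp:
`(u, v) + (v, w) = (u, w)`. -/
theorem cuspHom_add {u v w : V2} (hu : u ≠ 0) (hv : v ≠ 0) (hw : w ≠ 0) :
    cuspHom Γ k u v + cuspHom Γ k v w = cuspHom Γ k u w := by
  refine AddMonoidHom.ext fun γ => ?_
  obtain ⟨γ, rfl⟩ := Additive.ofMul.surjective γ
  rw [AddMonoidHom.add_apply, cuspHom_apply, cuspHom_apply, cuspHom_apply, ← mul_add,
    ← Int.cast_add]
  congr 2
  have h := flow_triangle hu hv hw γ⁻¹
  rw [flow_swap u w] at h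
  linarith

/-- An invariant function of pairs of cusps, additive at a common cusp. -/
structure IsSymbol (Γ : Subgroup SL(2, ℤ)) {k : Type*} [Field k] (a : V2 → V2 → k) : Prop where
  add : ∀ {u v w : V2}, u ≠ 0 → v ≠ 0 → w ≠ 0 → a u v + a v w = a u w
  mulVec : ∀ (e : Γ) (u v : V2),
    a (((e : SL(2, ℤ)) : Mat2).mulVec u) (((e : SL(2, ℤ)) : Mat2).mulVec v) = a u v
  smul : ∀ {c d : ℤ}, c ≠ 0 → d ≠ 0 → ∀ u v : V2, a (c • u) (d • v) = a u v

/-- A functional on homomorphisms gives a symbol. -/
theorem isSymbol_functional (φ : (Additive Γ →+ k) →ₗ[k] k) :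
    IsSymbol Γ fun u v => φ (cuspHom Γ k u v) where
  add hu hv hw := by rw [← map_add, cuspHom_add hu hv hw]
  mulVec e u v := by rw [cuspHom_mulVec]
  smul hc hd u v := by rw [cuspHom_smul hc hd]

namespace IsSymbol

variable {a : V2 → V2 → k} (h : IsSymbol Γ a)
include h

lemma self {u : V2} (hu : u ≠ 0) : a u u = 0 := add_eq_left.mp (h.add hu hu hu)

/-- A symbol is antisymmetric. -/
lemma swap {u v : V2} (hu : u ≠ 0) (hv : v ≠ 0) : a v u = -a u v :=
  eq_neg_of_add_eq_zero_left ((h.add hv hu hv).trans (h.self hv))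

/-- The value on a closed path does not depend on its base point. -/
lemma base {x y : V2} (hx : x ≠ 0) (hy : y ≠ 0) (γ : Γ) :
    a x (((γ : SL(2, ℤ)) : Mat2).mulVec x) = a y (((γ : SL(2, ℤ)) : Mat2).mulVec y) := by
  have hgx := mulVec_ne_zero (A := ((γ : SL(2, ℤ)) : Mat2)) (by simp) hx
  have hgy := mulVec_ne_zero (A := ((γ : SL(2, ℤ)) : Mat2)) (by simp) hy
  have e1 := h.add hx hy hgy
  have e2 := h.add hx hgx hgy
  rw [h.mulVec γ x y] at e2
  linear_combination e2 - e1

omit h in
/-- The cusp `∞`. -/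
def infVec : V2 := ![1, 0]

omit h in
/-- The vector `(1, 0)` of the cusp `∞` is nonzero. -/
lemma infVec_ne_zero : infVec ≠ 0 := fun h => one_ne_zero (congrFun h 0)

/-- The class of a symbol. -/
def cls : Additive Γ →+ k where
  toFun γ := a infVec ((((Additive.toMul γ : Γ) : SL(2, ℤ)) : Mat2).mulVec infVec)
  map_zero' := by simp [h.self infVec_ne_zero]
  map_add' := fun γ δ => by
    rw [toMul_add, Subgroup.coe_mul, Matrix.SpecialLinearGroup.coe_mul, ← Matrix.mulVec_mulVec,
      ← h.mulVec (Additive.toMul γ) infVec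
        ((((Additive.toMul δ : Γ) : SL(2, ℤ)) : Mat2).mulVec infVec)]
    exact (h.add infVec_ne_zero (mulVec_ne_zero (by simp) infVec_ne_zero)
      (mulVec_ne_zero (by simp) (mulVec_ne_zero (by simp) infVec_ne_zero))).symm

/-- The class of a symbol at `γ` is its value on the path from `x` to `γ x`, for any cusp `x`. -/
lemma cls_apply {x : V2} (hx : x ≠ 0) (γ : Γ) :
    h.cls (Additive.ofMul γ) = a x (((γ : SL(2, ℤ)) : Mat2).mulVec x) :=
  h.base infVec_ne_zero hx γ

/-- A symbol of class zero is the difference of an invariant function. -/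
lemma exists_boundary (h0 : h.cls = 0) :
    ∃ f : V2 → k, (∀ (e : Γ) {u : V2}, u ≠ 0 → f (((e : SL(2, ℤ)) : Mat2).mulVec u) = f u) ∧
      (∀ {c : ℤ}, c ≠ 0 → ∀ u : V2, f (c • u) = f u) ∧
      ∀ {u v : V2}, u ≠ 0 → v ≠ 0 → a u v = f v - f u := by
  refine ⟨fun u => a infVec u, fun e u hu => ?_, fun {c} hc u => ?_, fun {u v} hu hv => ?_⟩
  · have h1 := h.add infVec_ne_zero hu (mulVec_ne_zero (A := ((e : SL(2, ℤ)) : Mat2)) (by simp) hu)
    rw [← h.cls_apply hu e, h0, AddMonoidHom.zero_apply, add_zero] at h1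
    exact h1.symm
  · simpa using h.smul one_ne_zero hc infVec u
  · exact eq_sub_of_add_eq' (h.add infVec_ne_zero hu hv)

end IsSymbol

end FermatAgent.HM.Dual
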