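import Fermat.Agent.HM.Dual.Cocycle
import Mathlib.LinearAlgebra.Matrix.FixedDetMatrices
import Mathlib.NumberTheory.Modular
import Mathlib.Algebra.Module.LinearMap.Defs
import Mathlib.GroupTheory.Index
import Mathlib.Tactic.Module

/-!
# The cocycles of pairs of cusps

On `SL(2, ℤ)` the counts of the unimodular pairs form a cocycle with values in the functions on
the cosets. It vanishes at `S`, its value at `T` is explicit, and on `Γ` it is a combination of
the homomorphisms of pairs of cusps.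
-/

set_option autoImplicit false

noncomputable section

open scoped MatrixGroups
open ModularGroup

namespace FermatAgent.HM.Dual

/-- The first basis vector. -/
def e₀ : V2 := ![1, 0]

/-- The second basis vector. -/
def e₁ : V2 := ![0, 1]

/-- The sign of the position of the translate `h i`. -/
def baseSign (h : SL(2, ℤ)) : ℤ := sTerm 1 e₀ e₁ h

lemma baseSign_eq (h : SL(2, ℤ)) : baseSign h = (h 0 0 * h 0 1 + h 1 0 * h 1 1).sign := by
  have hd := h.det_coe
  rw [Matrix.det_fin_two] at hd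
  simp only [baseSign, sTerm, pairSign, one_mul, det2, dot2, e₀, e₁, Matrix.mulVec, dotProduct,
    Fin.sum_univ_two, Matrix.cons_val_zero, Matrix.cons_val_one,
    mul_one, mul_zero, add_zero, zero_add]
  rw [show (h 0 0 : ℤ) * h 1 1 - h 1 0 * h 0 1 = 1 by linear_combination hd]
  simp

lemma sign_diag {a b c d : ℤ} (h : a * d - b * c = 1) (hcd : c * d ≠ 0) :
    (a * b + c * d).sign = (c * d).sign := by
  have h1 : 0 < 4 * (c * d) * (a * b + c * d) := by
    have h2 : 1 ≤ (c * d) ^ 2 := Int.one_le_abs hcd |> fun h => by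
      nlinarith [abs_mul_abs_self (c * d)]
    have h3 : 4 * (a * d) * (b * c) = (a * d + b * c) ^ 2 - 1 := by
      linear_combination (-(a * d - b * c) - 1) * h
    nlinarith [sq_nonneg (a * d + b * c)]
  rcases lt_or_gt_of_ne hcd with hn | hp
  · rw [Int.sign_eq_neg_one_of_neg hn, Int.sign_eq_neg_one_of_neg (by nlinarith)]
  · rw [Int.sign_eq_one_of_pos hp, Int.sign_eq_one_of_pos (by nlinarith)]

lemma T_inv_mul_entries (h : SL(2, ℤ)) :
    (T⁻¹ * h) 0 0 = h 0 0 - h 1 0 ∧ (T⁻¹ * h) 0 1 = h 0 1 - h 1 1 ∧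
      (T⁻¹ * h) 1 0 = h 1 0 ∧ (T⁻¹ * h) 1 1 = h 1 1 := by
  simp [Matrix.SpecialLinearGroup.coe_mul, Matrix.mul_apply, Fin.sum_univ_two]
  constructor <;> ring

/-- The translates whose position changes on the way from `i` to `i + 1`. -/
def crossSet : Finset SL(2, ℤ) := {1, -1, T, -T, S, -S, T * S, -(T * S)}

/-- The sign changes across `T` only at the eight translates of `crossSet`. -/
lemma baseSign_sub_eq_zero {h : SL(2, ℤ)} (hh : h ∉ crossSet) :
    baseSign (T⁻¹ * h) - baseSign h = 0 := by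
  obtain ⟨e00, e01, e10, e11⟩ := T_inv_mul_entries h
  have hd := h.det_coe
  rw [Matrix.det_fin_two] at hd
  rw [baseSign_eq, baseSign_eq, e00, e01, e10, e11]
  by_cases hcd : (h 1 0 : ℤ) * h 1 1 = 0
  · have key : ∀ x : SL(2, ℤ), x ∈ crossSet → ¬ ((h 0 0 : ℤ) = x 0 0 ∧ (h 0 1 : ℤ) = x 0 1 ∧
        (h 1 0 : ℤ) = x 1 0 ∧ (h 1 1 : ℤ) = x 1 1) := fun x hx he => hh (by
      convert hx using 1
      ext i j
      fin_cases i <;> fin_cases j
      exacts [he.1, he.2.1, he.2.2.1, he.2.2.2])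
    rcases mul_eq_zero.mp hcd with hc | hd0
    · rw [hc, mul_zero, sub_zero] at hd
      rw [hc, zero_mul, sub_zero, add_zero, add_zero]
      obtain ⟨ha, hb⟩ | ⟨ha, hb⟩ := Int.mul_eq_one_iff_eq_one_or_neg_one.mp hd
      · have h0 : (h 0 1 : ℤ) ≠ 0 := fun h0 => key 1 (by simp [crossSet])
          ⟨by simpa using ha, by simpa using h0, by simpa using hc, by simpa using hb⟩
        have h1 : (h 0 1 : ℤ) ≠ 1 := fun h1 => key T (by simp [crossSet])
          ⟨by simpa [coe_T] using ha, by simpa [coe_T] using h1, by simpa [coe_T] using hc,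
            by simpa [coe_T] using hb⟩
        rw [ha, hb, one_mul, one_mul]
        rcases lt_or_gt_of_ne h0 with hl | hl
        · rw [Int.sign_eq_neg_one_of_neg hl, Int.sign_eq_neg_one_of_neg (by omega)]; rfl
        · rw [Int.sign_eq_one_of_pos hl, Int.sign_eq_one_of_pos (by omega)]; rfl
      · have h0 : (h 0 1 : ℤ) ≠ 0 := fun h0 => key (-1) (by simp [crossSet])
          ⟨by simpa using ha, by simpa using h0, by simpa using hc, by simpa using hb⟩
        have h1 : (h 0 1 : ℤ) ≠ -1 := fun h1 => key (-T) (by simp [crossSet])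
          ⟨by simpa [coe_T] using ha, by simpa [coe_T] using h1, by simpa [coe_T] using hc,
            by simpa [coe_T] using hb⟩
        rw [ha, hb]
        rcases lt_or_gt_of_ne h0 with hl | hl
        · rw [Int.sign_eq_one_of_pos (show 0 < -1 * ((h 0 1 : ℤ) - -1) by omega),
            Int.sign_eq_one_of_pos (show 0 < -1 * (h 0 1 : ℤ) by omega)]; rfl
        · rw [Int.sign_eq_neg_one_of_neg (show -1 * ((h 0 1 : ℤ) - -1) < 0 by omega),
            Int.sign_eq_neg_one_of_neg (show -1 * (h 0 1 : ℤ) < 0 by omega)]; rfl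
    · rw [hd0, mul_zero, zero_sub, ← neg_mul] at hd
      rw [hd0, mul_zero, sub_zero, add_zero, add_zero]
      obtain ⟨hb, hc⟩ | ⟨hb, hc⟩ := Int.mul_eq_one_iff_eq_one_or_neg_one.mp hd
      · have hb' : (h 0 1 : ℤ) = -1 := by omega
        have h0 : (h 0 0 : ℤ) ≠ 0 := fun h0 => key S (by simp [crossSet])
          ⟨by simpa [coe_S] using h0, by simpa [coe_S] using hb', by simpa [coe_S] using hc,
            by simpa [coe_S] using hd0⟩
        have h1 : (h 0 0 : ℤ) ≠ 1 := fun h1 => key (T * S) (by simp [crossSet])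
          ⟨by simpa [coe_S, coe_T] using h1, by simpa [coe_S, coe_T] using hb',
            by simpa [coe_S, coe_T] using hc, by simpa [coe_S, coe_T] using hd0⟩
        rw [hb', hc]
        rcases lt_or_gt_of_ne h0 with hl | hl
        · rw [Int.sign_eq_one_of_pos (show 0 < ((h 0 0 : ℤ) - 1) * -1 by omega),
            Int.sign_eq_one_of_pos (show 0 < (h 0 0 : ℤ) * -1 by omega)]; rfl
        · rw [Int.sign_eq_neg_one_of_neg (show ((h 0 0 : ℤ) - 1) * -1 < 0 by omega),
            Int.sign_eq_neg_one_of_neg (show (h 0 0 : ℤ) * -1 < 0 by omega)]; rfl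
      · have hb' : (h 0 1 : ℤ) = 1 := by omega
        have h0 : (h 0 0 : ℤ) ≠ 0 := fun h0 => key (-S) (by simp [crossSet])
          ⟨by simpa [coe_S] using h0, by simpa [coe_S] using hb', by simpa [coe_S] using hc,
            by simpa [coe_S] using hd0⟩
        have h1 : (h 0 0 : ℤ) ≠ -1 := fun h1 => key (-(T * S)) (by simp [crossSet])
          ⟨by simpa [coe_S, coe_T] using h1, by simpa [coe_S, coe_T] using hb',
            by simpa [coe_S, coe_T] using hc, by simpa [coe_S, coe_T] using hd0⟩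
        rw [hb', hc]
        rcases lt_or_gt_of_ne h0 with hl | hl
        · rw [Int.sign_eq_neg_one_of_neg (show ((h 0 0 : ℤ) - -1) * 1 < 0 by omega),
            Int.sign_eq_neg_one_of_neg (show (h 0 0 : ℤ) * 1 < 0 by omega)]; rfl
        · rw [Int.sign_eq_one_of_pos (show 0 < ((h 0 0 : ℤ) - -1) * 1 by omega),
            Int.sign_eq_one_of_pos (show 0 < (h 0 0 : ℤ) * 1 by omega)]; rfl
  · rw [sign_diag (by linear_combination hd) hcd, sign_diag (by linear_combination hd) hcd,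
      sub_self]

variable (Γ : Subgroup SL(2, ℤ)) (k : Type*) [Field k]

/-- Functions on the cosets. -/
abbrev CosetFun := SL(2, ℤ) ⧸ Γ → k

variable {Γ k}

/-- Translation of functions. -/
def act (g : SL(2, ℤ)) (f : CosetFun Γ k) : CosetFun Γ k := fun x => f (g⁻¹ • x)

omit [Field k] in
/-- The identity acts trivially on functions on the cosets. -/
lemma act_one (f : CosetFun Γ k) : act 1 f = f := funext fun x => by simp [act]

omit [Field k] in
/-- Translation of functions on the cosets is an action of `SL(2, ℤ)`. -/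
lemma act_mul (g g' : SL(2, ℤ)) (f : CosetFun Γ k) : act (g * g') f = act g (act g' f) :=
  funext fun x => by simp [act, mul_smul]

lemma act_sub (g : SL(2, ℤ)) (f f' : CosetFun Γ k) : act g (f - f') = act g f - act g f' := rfl

/-- When `-1 ∈ Γ`, it fixes every coset of `Γ`. -/
lemma neg_one_smul_coset (hneg : (-1 : SL(2, ℤ)) ∈ Γ) (x : SL(2, ℤ) ⧸ Γ) :
    (-1 : SL(2, ℤ)) • x = x := by
  induction x using QuotientGroup.induction_on with
  | _ g =>
    change QuotientGroup.mk ((-1 : SL(2, ℤ)) * g) = QuotientGroup.mk g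
    rw [QuotientGroup.eq]
    simpa using hneg

/-- A cocycle in the functions on the cosets. -/
def IsCoc (C : SL(2, ℤ) → CosetFun Γ k) : Prop := ∀ g g', C (g * g') = C g + act g (C g')

namespace IsCoc

variable {C C' : SL(2, ℤ) → CosetFun Γ k} (hC : IsCoc C) (hC' : IsCoc C')
include hC

/-- A cocycle vanishes at the identity. -/
lemma one : C 1 = 0 := by
  have h := hC 1 1
  rwa [mul_one, act_one, left_eq_add] at h

/-- A cocycle minus a coboundary is a cocycle. -/
lemma sub_d (v : CosetFun Γ k) : IsCoc fun g => C g - (act g v - v) := fun g g' => by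
  simp only [hC g g', act_sub, act_mul]
  abel

include hC'

/-- Cocycles agreeing on `S` and `T` agree. -/
lemma ext (hS : C S = C' S) (hT : C T = C' T) : C = C' := funext fun g => by
  have hg : g ∈ Subgroup.closure ({S, T} : Set SL(2, ℤ)) := by
    rw [SpecialLinearGroup.SL2Z_generators]; exact Subgroup.mem_top g
  induction hg using Subgroup.closure_induction with
  | mem x hx => rcases hx with rfl | rfl <;> assumption
  | one => rw [hC.one, hC'.one]
  | mul x y _ _ hx hy => rw [hC, hC', hx, hy]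
  | inv x _ hx =>
    have h1 := hC x⁻¹ x
    have h2 := hC' x⁻¹ x
    rw [inv_mul_cancel, hC.one] at h1
    rw [inv_mul_cancel, hC'.one, ← hx] at h2
    rw [eq_neg_of_add_eq_zero_left h1.symm, eq_neg_of_add_eq_zero_left h2.symm]

end IsCoc

variable (Γ) in
/-- The cocycle of the unimodular pairs weighted by a function on the cosets. -/
def weightCoc (w : CosetFun Γ k) (g : SL(2, ℤ)) : CosetFun Γ k := fun x =>
  (4 : k)⁻¹ * ∑ᶠ h : SL(2, ℤ), ((baseSign (g⁻¹ * h) - baseSign h : ℤ) : k) * w (h⁻¹ • x)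

lemma baseSign_mul (e h : SL(2, ℤ)) : baseSign (e * h) = sTerm (e : Mat2) e₀ e₁ h := by
  rw [baseSign, sTerm_mul_left, one_mul]

lemma finite_weight (w : CosetFun Γ k) (g : SL(2, ℤ)) (x : SL(2, ℤ) ⧸ Γ) :
    (Function.support fun h : SL(2, ℤ) =>
      ((baseSign (g⁻¹ * h) - baseSign h : ℤ) : k) * w (h⁻¹ • x)).Finite := by
  refine (finite_sTerm_sub e₀ e₁ (P := 1) (P' := ((g⁻¹ : SL(2, ℤ)) : Mat2)) (by simp)
    (det_coe_pos _)).subset fun h hh h0 => hh ?_
  simp only at h0 ⊢
  rw [baseSign_mul, show baseSign h = sTerm 1 e₀ e₁ h from rfl, h0]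
  simp

/-- The weighted counts form a cocycle. -/
theorem isCoc_weightCoc (w : CosetFun Γ k) : IsCoc (weightCoc Γ w) := fun g g' => funext fun x => by
  simp only [weightCoc, Pi.add_apply, act, ← mul_add]
  congr 1
  rw [← finsum_comp_equiv (Equiv.mulLeft g⁻¹) (f := fun h : SL(2, ℤ) =>
      ((baseSign (g'⁻¹ * h) - baseSign h : ℤ) : k) * w (h⁻¹ • g⁻¹ • x)),
    ← finsum_add_distrib (finite_weight w g x)
      ((finite_weight w g' (g⁻¹ • x)).preimage (Equiv.mulLeft g⁻¹).injective.injOn)]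
  refine finsum_congr fun h => ?_
  simp only [Equiv.coe_mulLeft, ← mul_smul, mul_inv_rev, inv_inv, mul_assoc, mul_inv_cancel,
    mul_one]
  push_cast
  ring

lemma baseSign_S (h : SL(2, ℤ)) : baseSign (S⁻¹ * h) = baseSign h := by
  rw [baseSign_eq, baseSign_eq]
  simp [Matrix.SpecialLinearGroup.coe_mul, Matrix.SpecialLinearGroup.coe_inv,
    Matrix.adjugate_fin_two, coe_S, Matrix.mul_apply, Fin.sum_univ_two]
  ring_nf

/-- The cocycle vanishes at `S`. -/
lemma weightCoc_S (w : CosetFun Γ k) : weightCoc Γ w S = 0 := funext fun x => by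
  simp [weightCoc, baseSign_S]

/-- The value of the cocycle at `T`, from the eight translates of `crossSet`. -/
lemma weightCoc_T (hneg : (-1 : SL(2, ℤ)) ∈ Γ) (h2 : (2 : k) ≠ 0) (w : CosetFun Γ k) :
    weightCoc Γ w T = -((2 : k)⁻¹ • ((w - act S w) + act T (w - act S w))) := funext fun x => by
  have hn : ∀ g : SL(2, ℤ), w ((-g)⁻¹ • x) = w (g⁻¹ • x) := fun g => by
    have e : ((-g : SL(2, ℤ)))⁻¹ = -1 * g⁻¹ := by
      refine inv_eq_of_mul_eq_one_right ?_
      simp
    rw [e, mul_smul, neg_one_smul_coset hneg]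
  rw [weightCoc, finsum_eq_sum_of_support_subset _ (s := crossSet) fun h hh => by
    by_contra hc
    exact hh (by simp [baseSign_sub_eq_zero hc])]
  rw [crossSet, Finset.sum_insert (by decide), Finset.sum_insert (by decide),
    Finset.sum_insert (by decide), Finset.sum_insert (by decide), Finset.sum_insert (by decide),
    Finset.sum_insert (by decide), Finset.sum_insert (by decide), Finset.sum_singleton]
  have v : ∀ g : SL(2, ℤ), baseSign (T⁻¹ * g) - baseSign g =
      (((T⁻¹ * g) 0 0 * (T⁻¹ * g) 0 1 + (T⁻¹ * g) 1 0 * (T⁻¹ * g) 1 1 : ℤ)).sign -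
        ((g 0 0 * g 0 1 + g 1 0 * g 1 1 : ℤ)).sign := fun g => by rw [baseSign_eq, baseSign_eq]
  have v1 : baseSign (T⁻¹ * 1) - baseSign 1 = -1 := by rw [v]; decide
  have v2 : baseSign (T⁻¹ * -1) - baseSign (-1) = -1 := by rw [v]; decide
  have v3 : baseSign (T⁻¹ * T) - baseSign T = -1 := by rw [v]; decide
  have v4 : baseSign (T⁻¹ * -T) - baseSign (-T) = -1 := by rw [v]; decide
  have v5 : baseSign (T⁻¹ * S) - baseSign S = 1 := by rw [v]; decide
  have v6 : baseSign (T⁻¹ * -S) - baseSign (-S) = 1 := by rw [v]; decide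
  have v7 : baseSign (T⁻¹ * (T * S)) - baseSign (T * S) = 1 := by rw [v]; decide
  have v8 : baseSign (T⁻¹ * -(T * S)) - baseSign (-(T * S)) = 1 := by rw [v]; decide
  simp only [v1, v2, v3, v4, v5, v6, v7, v8, hn, inv_one, one_smul, mul_inv_rev, mul_smul]
  simp only [act, Pi.neg_apply, Pi.smul_apply, Pi.add_apply, Pi.sub_apply, smul_eq_mul]
  push_cast
  rw [show (4 : k) = 2 * 2 by norm_num]
  field_simp
  ring

/-- The section of the cosets. -/
def cosetEquiv (Γ : Subgroup SL(2, ℤ)) : (SL(2, ℤ) ⧸ Γ) × Γ ≃ SL(2, ℤ) where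
  toFun p := (p.2 : SL(2, ℤ)) * p.1.out⁻¹
  invFun h := (QuotientGroup.mk h⁻¹,
    ⟨h * (QuotientGroup.mk h⁻¹ : SL(2, ℤ) ⧸ Γ).out, by
      have h1 : (QuotientGroup.mk h⁻¹ : SL(2, ℤ) ⧸ Γ) =
          QuotientGroup.mk (QuotientGroup.mk h⁻¹ : SL(2, ℤ) ⧸ Γ).out :=
        (QuotientGroup.out_eq' _).symm
      rw [QuotientGroup.eq, inv_inv] at h1
      exact h1⟩)
  left_inv p := by
    obtain ⟨x, δ⟩ := p
    have h1 : (QuotientGroup.mk ((δ : SL(2, ℤ)) * x.out⁻¹)⁻¹ : SL(2, ℤ) ⧸ Γ) = x := by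
      conv_rhs => rw [← QuotientGroup.out_eq' x]
      rw [QuotientGroup.eq, inv_inv, mul_assoc, inv_mul_cancel, mul_one]
      exact δ.2
    simp only [Prod.mk.injEq]
    refine ⟨h1, Subtype.ext ?_⟩
    change (δ : SL(2, ℤ)) * x.out⁻¹ * _ = _
    rw [h1, inv_mul_cancel_right]
  right_inv h := by simp

lemma cosetEquiv_coset (Γ : Subgroup SL(2, ℤ)) (x : SL(2, ℤ) ⧸ Γ) (δ : Γ) :
    (cosetEquiv Γ (x, δ))⁻¹ • (QuotientGroup.mk 1 : SL(2, ℤ) ⧸ Γ) = x := by
  change QuotientGroup.mk (((δ : SL(2, ℤ)) * x.out⁻¹)⁻¹ * 1) = x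
  rw [mul_one]
  exact congrArg Prod.fst ((cosetEquiv Γ).symm_apply_apply (x, δ))

/-- The homomorphism of the unimodular pair of a coset. -/
def cosetHom (Γ : Subgroup SL(2, ℤ)) (k : Type*) [Field k] (x : SL(2, ℤ) ⧸ Γ) :
    Additive Γ →+ k :=
  cuspHom Γ k ((((x.out⁻¹ : SL(2, ℤ))) : Mat2).mulVec e₀)
    ((((x.out⁻¹ : SL(2, ℤ))) : Mat2).mulVec e₁)

/-- On `Γ` the cocycle is a combination of the homomorphisms of unimodular pairs. -/
lemma weightCoc_restrict [Fintype (SL(2, ℤ) ⧸ Γ)] (w : CosetFun Γ k) (γ : Γ) :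
    weightCoc Γ w γ (QuotientGroup.mk 1) =
      ∑ x, w x * cosetHom Γ k x (Additive.ofMul γ) := by
  set F : (SL(2, ℤ) ⧸ Γ) × Γ → k := fun p =>
    ((baseSign ((γ : SL(2, ℤ))⁻¹ * cosetEquiv Γ p) - baseSign (cosetEquiv Γ p) : ℤ) : k) * w p.1
  have hF : (Function.support F).Finite := by
    refine ((finite_weight w (γ : SL(2, ℤ)) (QuotientGroup.mk 1)).preimage
      (cosetEquiv Γ).injective.injOn).subset fun p hp => ?_
    obtain ⟨x, δ⟩ := p
    simp only [Set.mem_preimage, Function.mem_support, cosetEquiv_coset] at hp ⊢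
    exact hp
  have e1 : weightCoc Γ w γ (QuotientGroup.mk 1) = (4 : k)⁻¹ * ∑ᶠ p, F p := by
    rw [weightCoc, ← finsum_comp_equiv (cosetEquiv Γ)]
    refine congrArg _ (finsum_congr fun p => ?_)
    obtain ⟨x, δ⟩ := p
    simp only [F, cosetEquiv_coset]
  rw [e1, finsum_curry F hF, finsum_eq_sum_of_fintype, Finset.mul_sum]
  refine Finset.sum_congr rfl fun x _ => ?_
  set u := (((x.out⁻¹ : SL(2, ℤ))) : Mat2).mulVec e₀
  set v := (((x.out⁻¹ : SL(2, ℤ))) : Mat2).mulVec e₁
  set G : Mat2 := (((γ⁻¹ : Γ) : SL(2, ℤ)) : Mat2)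
  have hfin := finite_flow (Γ := Γ) u v (P := 1) (P' := G) (by simp) (det_coe_pos _)
  have hcast : ((flow Γ u v 1 G : ℤ) : k) =
      ∑ᶠ δ : Γ, ((sTerm G u v (δ : SL(2, ℤ)) - sTerm 1 u v (δ : SL(2, ℤ)) : ℤ) : k) := by
    rw [flow]
    exact AddMonoidHom.map_finsum (Int.castAddHom k) hfin
  have hfin' : (Function.support fun δ : Γ =>
      ((sTerm G u v (δ : SL(2, ℤ)) - sTerm 1 u v (δ : SL(2, ℤ)) : ℤ) : k)).Finite :=
    hfin.subset fun δ hδ h0 => hδ (by simp only at h0 ⊢; rw [h0, Int.cast_zero])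
  have hx : ∀ δ : Γ, F (x, δ) =
      ((sTerm G u v (δ : SL(2, ℤ)) - sTerm 1 u v (δ : SL(2, ℤ)) : ℤ) : k) * w x := fun δ => by
    have e2 : ∀ e : SL(2, ℤ), sTerm (e : Mat2) e₀ e₁ ((δ : SL(2, ℤ)) * x.out⁻¹) =
        sTerm (e : Mat2) u v (δ : SL(2, ℤ)) := fun e => sTerm_mul_right _ _ _ _ _
    simp only [F]
    rw [show cosetEquiv Γ (x, δ) = (δ : SL(2, ℤ)) * x.out⁻¹ from rfl, baseSign_mul, e2,
      show baseSign ((δ : SL(2, ℤ)) * x.out⁻¹) = sTerm 1 u v (δ : SL(2, ℤ)) from
        sTerm_mul_right _ _ _ _ _]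
    rfl
  rw [finsum_congr hx, ← finsum_mul' _ _ hfin', ← hcast, cosetHom, cuspHom_apply]
  ring

/-- The Hilbert 90 witness for `S * T`. -/
def normSplit (ε : CosetFun Γ k) (c : CosetFun Γ k) : CosetFun Γ k :=
  c * act (S * T) ε + (c + act (S * T) c) * act ((S * T) * (S * T)) ε

end FermatAgent.HM.Dual
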