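import Fermat.Agent.HM.Dual.Natural
import Fermat.Agent.HM.Dual.Surjective
import Fermat.Agent.HM.H1.DegeneracyOps

/-!
# Pairs of cusps on `Γ₀(M)`

The bijections of cosets behind the Hecke, corestriction and Atkin–Lehner correspondences, and the
congruence of cusps.
-/

set_option autoImplicit false

noncomputable section

open scoped MatrixGroups OnePoint
open CongruenceSubgroup ModularGroup

namespace FermatAgent.HM.Dual

/-! ### The Hecke correspondence -/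

section Hecke

variable {M p : ℕ} [Fact p.Prime]

lemma exists_hecke_swap (hp : ¬ p ∣ M) (i : HIdx M p) (δ : Gamma0 M) :
    ∃ (el : Gamma0 M) (j : HIdx M p),
      (hRep M p i).adjugate * ((δ : SL(2, ℤ)) : Mat2) = ((el : SL(2, ℤ)) : Mat2) * hRep M p j := by
  refine exists_eq_coe_mul_hRep _ ?_ ?_ ?_
  · simp [det_hRep, Matrix.det_adjugate]
  · rw [Matrix.adjugate_fin_two, Matrix.mul_apply, Fin.sum_univ_two]
    refine dvd_add ?_ (Dvd.dvd.mul_left
      ((ZMod.intCast_zmod_eq_zero_iff_dvd _ _).mp (Gamma0_mem.mp δ.2)) _)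
    simp [hRep_ten]
  · obtain ⟨c, hc⟩ := (ZMod.intCast_zmod_eq_zero_iff_dvd _ _).mp (Gamma0_mem.mp δ.2)
    have hd := ((δ : SL(2, ℤ))).det_coe
    rw [Matrix.det_fin_two, hc] at hd
    have hδ : IsCoprime (((δ : SL(2, ℤ)) : Mat2) 0 0) (M : ℤ) :=
      ⟨(δ : SL(2, ℤ)) 1 1, -((δ : SL(2, ℤ)) 0 1 * c), by linear_combination hd⟩
    have h1 : IsCoprime (hRep M p i 1 1) (M : ℤ) := by
      have hdet := det_hRep i
      rw [Matrix.det_fin_two, hRep_ten, mul_zero, sub_zero] at hdet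
      have hpM : IsCoprime (p : ℤ) (M : ℤ) := Nat.isCoprime_iff_coprime.mpr
        ((Nat.Prime.coprime_iff_not_dvd Fact.out).mpr hp)
      rw [← hdet] at hpM
      exact hpM.of_mul_left_right
    rw [Matrix.adjugate_fin_two, Matrix.mul_apply, Fin.sum_univ_two, hc]
    simp only [Matrix.of_apply, Matrix.cons_val', Matrix.cons_val_zero, Matrix.cons_val_one,
      Matrix.cons_val_fin_one]
    rw [show hRep M p i 1 1 * ((δ : SL(2, ℤ)) : Mat2) 0 0 + -hRep M p i 0 1 * ((M : ℤ) * c) =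
      hRep M p i 1 1 * ((δ : SL(2, ℤ)) : Mat2) 0 0 + (M : ℤ) * (-hRep M p i 0 1 * c) by ring]
    exact (h1.mul_left hδ).add_mul_left_left _

lemma hecke_swap_unique {A : Mat2} {el el' : Gamma0 M} {j j' : HIdx M p}
    (h : A = ((el : SL(2, ℤ)) : Mat2) * hRep M p j)
    (h' : A = ((el' : SL(2, ℤ)) : Mat2) * hRep M p j') : j = j' ∧ el = el' := by
  obtain rfl : j = j' := systemIndex_unique (hRep M p)
    (fun _ _ e he => Subtype.ext (repMat_unique (γ := (e : SL(2, ℤ))) he)) h h'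
  exact ⟨rfl, Subtype.ext (mat2_coe_mul_inj (by
    rw [det_hRep]; exact_mod_cast (Fact.out : p.Prime).ne_zero) (h.symm.trans h'))⟩

/-- The double coset of a prime is stable under the adjugate. -/
def heckeSwap (hp : ¬ p ∣ M) : HIdx M p × Gamma0 M ≃ HIdx M p × Gamma0 M :=
  let f : HIdx M p × Gamma0 M → HIdx M p × Gamma0 M := fun x =>
    ((exists_hecke_swap hp x.1 x.2).choose_spec.choose, (exists_hecke_swap hp x.1 x.2).choose)
  have hf : ∀ x, (hRep M p x.1).adjugate * ((x.2 : SL(2, ℤ)) : Mat2) =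
      (((f x).2 : SL(2, ℤ)) : Mat2) * hRep M p (f x).1 := fun x =>
    (exists_hecke_swap hp x.1 x.2).choose_spec.choose_spec
  have key : ∀ x, f ((f x).1, (f x).2⁻¹) = (x.1, x.2⁻¹) := fun x => by
    have hadj : ∀ A : Mat2, A.adjugate.adjugate = A := fun A => by
      ext i j; fin_cases i <;> fin_cases j <;> simp [Matrix.adjugate_fin_two]
    have h1 := congrArg Matrix.adjugate (hf x)
    rw [Matrix.adjugate_mul_distrib, Matrix.adjugate_mul_distrib, hadj,
      ← Matrix.SpecialLinearGroup.coe_inv, ← Matrix.SpecialLinearGroup.coe_inv,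
      ← Subgroup.coe_inv, ← Subgroup.coe_inv] at h1
    exact Prod.ext (hecke_swap_unique (hf _) h1.symm).1 (hecke_swap_unique (hf _) h1.symm).2
  { toFun := f
    invFun := fun y => ((f (y.1, y.2⁻¹)).1, (f (y.1, y.2⁻¹)).2⁻¹)
    left_inv := fun x => by simp only [key, inv_inv]
    right_inv := fun y => by
      have := key (y.1, y.2⁻¹)
      simp only [inv_inv] at this
      exact this }

lemma heckeSwap_spec (hp : ¬ p ∣ M) (x : HIdx M p × Gamma0 M) :
    (hRep M p x.1).adjugate * ((x.2 : SL(2, ℤ)) : Mat2) =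
      (((heckeSwap hp x).2 : SL(2, ℤ)) : Mat2) * hRep M p (heckeSwap hp x).1 :=
  (exists_hecke_swap hp x.1 x.2).choose_spec.choose_spec

/-- The Hecke transfer of the homomorphism of a pair. -/
theorem homOp_hecke_cuspHom {k : Type*} [Field k] {N L : ℕ} (hNM : N ∣ M) (hpL : p.Coprime L)
    (hp : ¬ p ∣ M) (u v : V2) :
    (heckeCorr hNM hpL).homOp (cuspHom (Gamma0 M) k u v) =
      ∑ j, cuspHom (Gamma0 M) k ((hRep M p j).mulVec u) ((hRep M p j).mulVec v) :=
  homOp_cuspHom _ (fun i => by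
    rw [heckeCorr_rep, det_hRep]
    exact_mod_cast (Fact.out : p.Prime).pos) (hRep M p) (heckeSwap hp)
    (fun x => by rw [heckeCorr_rep]; exact heckeSwap_spec hp x) u v

end Hecke

/-! ### Degeneracy correspondences -/

section Degeneracy

variable (D : ALData)

/-- The transversal as a bijection. -/
def transversalSwap : D.PLine × Gamma0 D.N ≃ Unit × Gamma0 D.L where
  toFun x := ((), ⟨(D.transversal x.1)⁻¹ * (x.2 : SL(2, ℤ)),
    mul_mem (inv_mem (D.transversal_mem _)) (D.gamma0_le x.2.2)⟩)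
  invFun y := (D.rowClass ((y.2 : SL(2, ℤ))⁻¹),
    ⟨D.transversal (D.rowClass ((y.2 : SL(2, ℤ))⁻¹)) * (y.2 : SL(2, ℤ)), by
      have := D.mul_inv_mem (D.transversal_mem (D.rowClass ((y.2 : SL(2, ℤ))⁻¹)))
        (inv_mem y.2.2) (D.rowClass_transversal _)
      rwa [inv_inv] at this⟩)
  left_inv x := by
    obtain ⟨x, δ⟩ := x
    have h : D.rowClass ((D.transversal x)⁻¹ * (δ : SL(2, ℤ)))⁻¹ = x := by
      rw [mul_inv_rev, inv_inv, D.rowClass_mul_left (inv_mem δ.2), D.rowClass_transversal]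
    refine Prod.ext h (Subtype.ext ?_)
    change D.transversal _ * ((D.transversal x)⁻¹ * (δ : SL(2, ℤ))) = _
    rw [h, mul_inv_cancel_left]
  right_inv y := Prod.ext rfl (Subtype.ext (by simp))

/-- The element carried past the Atkin–Lehner matrix. -/
def wConj (δ : Gamma0 D.N) : Gamma0 D.N :=
  ⟨(D.exists_sl_conj δ.2).choose, (D.exists_sl_conj δ.2).choose_spec.1⟩

lemma wConj_spec (δ : Gamma0 D.N) :
    D.mat * ((δ : SL(2, ℤ)) : Mat2) = ((wConj D δ : SL(2, ℤ)) : Mat2) * D.mat :=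
  (D.exists_sl_conj δ.2).choose_spec.2

lemma wConj_unique {δ e : Gamma0 D.N}
    (h : D.mat * ((δ : SL(2, ℤ)) : Mat2) = ((e : SL(2, ℤ)) : Mat2) * D.mat) : wConj D δ = e :=
  Subtype.ext (mat2_coe_mul_inj D.det_mat_ne_zero ((wConj_spec D δ).symm.trans h))

/-- Conjugation by the Atkin–Lehner matrix. -/
def wConjHom : Gamma0 D.N →* Gamma0 D.N where
  toFun := wConj D
  map_one' := wConj_unique D (by simp)
  map_mul' a b := wConj_unique D (by
    rw [Subgroup.coe_mul, Subgroup.coe_mul, Matrix.SpecialLinearGroup.coe_mul,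
      Matrix.SpecialLinearGroup.coe_mul, ← mul_assoc, wConj_spec, mul_assoc, wConj_spec, mul_assoc])

/-- The square of the Atkin–Lehner matrix, divided by `q`. -/
abbrev wSq : Gamma0 D.N := ⟨D.sqSL, D.sqSL_mem⟩

lemma wConjHom_sq : wConjHom D (wSq D) = wSq D := wConj_unique D <| by
  refine smul_right_injective Mat2 D.q_ne_zero ?_
  change (D.q : ℤ) • (D.mat * (D.sqSL : Mat2)) = (D.q : ℤ) • ((D.sqSL : Mat2) * D.mat)
  rw [← mul_smul_comm, ← D.mat_sq, ← smul_mul_assoc, ← D.mat_sq, mul_assoc]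

lemma wConjHom_wConjHom (δ : Gamma0 D.N) :
    wConjHom D (wConjHom D δ) * wSq D = wSq D * δ := by
  refine Subtype.ext (Subtype.ext (smul_right_injective Mat2 D.q_ne_zero ?_))
  change (D.q : ℤ) • (((wConj D (wConj D δ) : SL(2, ℤ)) : Mat2) * (D.sqSL : Mat2)) =
    (D.q : ℤ) • ((D.sqSL : Mat2) * ((δ : SL(2, ℤ)) : Mat2))
  rw [← mul_smul_comm, ← D.mat_sq, ← smul_mul_assoc, ← D.mat_sq, ← mul_assoc, ← wConj_spec,
    mul_assoc, ← wConj_spec, mul_assoc]

/-- The Atkin–Lehner matrix normalises `Γ₀(N)`. -/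
def wSwap : Unit × Gamma0 D.N ≃ Unit × Gamma0 D.N where
  toFun x := ((), (wSq D)⁻¹ * wConjHom D x.2)
  invFun y := ((), wConjHom D y.2 * wSq D)
  left_inv x := by
    refine Prod.ext rfl ?_
    simp only [map_mul, map_inv, wConjHom_sq]
    rw [mul_assoc, wConjHom_wConjHom, inv_mul_cancel_left]
  right_inv y := by
    refine Prod.ext rfl ?_
    simp only [map_mul, wConjHom_sq]
    rw [wConjHom_wConjHom, inv_mul_cancel_left]

lemma wSwap_spec (x : Unit × Gamma0 D.N) :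
    D.mat.adjugate * ((x.2 : SL(2, ℤ)) : Mat2) = (((wSwap D x).2 : SL(2, ℤ)) : Mat2) * D.mat := by
  refine smul_right_injective Mat2 D.q_ne_zero ?_
  obtain ⟨_, δ⟩ := x
  change (D.q : ℤ) • (D.mat.adjugate * ((δ : SL(2, ℤ)) : Mat2)) =
    (D.q : ℤ) • (((D.sqSL⁻¹ * (wConj D δ : SL(2, ℤ)) : SL(2, ℤ)) : Mat2) * D.mat)
  rw [Matrix.SpecialLinearGroup.coe_mul, mul_assoc, ← wConj_spec]
  have hs : ((D.sqSL⁻¹ : SL(2, ℤ)) : Mat2) * (D.mat * D.mat) = (D.q : ℤ) • (1 : Mat2) := by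
    rw [D.mat_sq, mul_smul_comm, ← Matrix.SpecialLinearGroup.coe_mul, inv_mul_cancel,
      Matrix.SpecialLinearGroup.coe_one]
  have h2 := congrArg (fun A => A * D.mat.adjugate) hs
  simp only [smul_mul_assoc, one_mul, mul_assoc, Matrix.mul_adjugate, D.det_mat, mul_smul_comm,
    mul_one] at h2
  rw [← smul_mul_assoc, ← h2, smul_mul_assoc, mul_assoc]

variable {k : Type*} [Field k] {N L : ℕ} (hN : N ∣ D.L) (hqL : D.q.Coprime L)

/-- Corestriction of the homomorphism of a pair. -/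
theorem homOp_cor_cuspHom (u v : V2) :
    (D.corCorr (L := L) hN).homOp (cuspHom (Gamma0 D.N) k u v) = cuspHom (Gamma0 D.L) k u v := by
  have hrep : ∀ i, (D.corCorr (L := L) hN).rep i = ((D.transversal i : SL(2, ℤ)) : Mat2) :=
    fun _ => rfl
  rw [homOp_cuspHom (k := k) (D.corCorr (L := L) hN)
    (fun i => by rw [hrep, Matrix.SpecialLinearGroup.det_coe]; exact zero_lt_one)
    (fun _ : Unit => 1) (transversalSwap D) (fun x => by
      rw [hrep, ← Matrix.SpecialLinearGroup.coe_inv, ← Matrix.SpecialLinearGroup.coe_mul, mul_one]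
      rfl)]
  simp

/-- The Atkin–Lehner transfer of the homomorphism of a pair. -/
theorem homOp_w_cuspHom (u v : V2) :
    (D.wCorr (L := L) hN hqL).homOp (cuspHom (Gamma0 D.N) k u v) =
      cuspHom (Gamma0 D.N) k (D.mat.mulVec u) (D.mat.mulVec v) := by
  rw [homOp_cuspHom (k := k) (D.wCorr (L := L) hN hqL)
    (fun i => by
      change 0 < D.mat.det
      rw [D.det_mat]; exact_mod_cast D.prime.pos)
    (fun _ : Unit => D.mat) (wSwap D) (fun x => wSwap_spec D x)]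
  simp

end Degeneracy

/-! ### Congruent cusps -/

variable {M : ℕ}

/-- A primitive vector is `Γ(M)`-equivalent to every primitive vector congruent to it. -/
lemma exists_gamma_mulVec {v w : V2} (hv : IsCoprime (v 0) (v 1)) (hw : IsCoprime (w 0) (w 1))
    (h : ∀ i, (M : ℤ) ∣ w i - v i) :
    ∃ g : SL(2, ℤ), g ∈ Gamma M ∧ (g : Mat2).mulVec v = w := by
  obtain ⟨x, y, hxy⟩ := hv
  set g : SL(2, ℤ) := ⟨!![v 0, -y; v 1, x], by rw [Matrix.det_fin_two_of]; linear_combination hxy⟩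
  set a := x * w 0 + y * w 1
  set c := -(v 1) * w 0 + v 0 * w 1
  obtain ⟨r, s, hrs⟩ := hw
  obtain ⟨m0, hm0⟩ := h 0
  obtain ⟨m1, hm1⟩ := h 1
  have ha : (M : ℤ) ∣ a - 1 := ⟨x * m0 + y * m1, by linear_combination x * hm0 + y * hm1 + hxy⟩
  have hc : (M : ℤ) ∣ c := ⟨-(v 1) * m0 + v 0 * m1, by linear_combination -(v 1) * hm0 + v 0 * hm1⟩
  obtain ⟨p', q', hpq⟩ : IsCoprime a c :=
    ⟨r * v 0 + s * v 1, r * (-y) + s * x, by
      linear_combination (r * w 0 + s * w 1) * hxy + hrs⟩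
  set d := p' + q' * c
  set b := q' * (a - 1)
  have hg' : (!![a, b; c, d] : Mat2).det = 1 := by
    rw [Matrix.det_fin_two_of]; linear_combination hpq
  set g' : SL(2, ℤ) := ⟨!![a, b; c, d], hg'⟩ with hgd
  refine ⟨g * g' * g⁻¹, ?_, ?_⟩
  · refine (Gamma_normal M).conj_mem _ ?_ g
    obtain ⟨a', ha'⟩ := ha
    obtain ⟨c', hc'⟩ := hc
    rw [Gamma_mem]
    simp only [hgd]
    have e0 : ((a : ℤ) : ZMod M) = 1 := by rw [show a = 1 + M * a' by linarith]; simp
    have e1 : ((c : ℤ) : ZMod M) = 0 := by rw [hc']; simp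
    have e2 : ((b : ℤ) : ZMod M) = 0 := by simp [b, e0]
    refine ⟨e0, e2, e1, ?_⟩
    have h3 := congrArg (Int.cast : ℤ → ZMod M) hpq
    push_cast at h3
    rw [e0, e1, mul_one, mul_zero, add_zero] at h3
    simp [d, e1, h3]
  · have hgv : ((g⁻¹ : SL(2, ℤ)) : Mat2).mulVec v = ![1, 0] := by
      rw [Matrix.SpecialLinearGroup.coe_inv]
      funext i
      fin_cases i <;>
        simp [g, Matrix.adjugate_fin_two, Matrix.mulVec, dotProduct, Fin.sum_univ_two]
      · linear_combination hxy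
      · ring
    rw [Matrix.SpecialLinearGroup.coe_mul, Matrix.SpecialLinearGroup.coe_mul,
      ← Matrix.mulVec_mulVec, ← Matrix.mulVec_mulVec, hgv]
    funext i
    fin_cases i <;>
      simp [g, hgd, a, c, Matrix.mulVec, dotProduct, Fin.sum_univ_two]
    · linear_combination w 0 * hxy
    · linear_combination w 1 * hxy

/-- A nonzero vector is a nonzero multiple of a primitive one. -/
theorem exists_eq_smul_primitive {v : V2} (hv : v ≠ 0) :
    ∃ (g : ℤ) (v0 : V2), g ≠ 0 ∧ IsCoprime (v0 0) (v0 1) ∧ v = g • v0 := by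
  have hg : Int.gcd (v 0) (v 1) ≠ 0 := fun h => hv (by
    obtain ⟨h0, h1⟩ := Int.gcd_eq_zero_iff.mp h
    funext i; fin_cases i <;> simp [h0, h1])
  refine ⟨Int.gcd (v 0) (v 1), ?_⟩
  obtain ⟨g, a, b, hgpos, hab, ha, hb⟩ := Int.exists_gcd_one' (Nat.pos_of_ne_zero hg)
  have hgg : Int.gcd (v 0) (v 1) = g := by
    rw [ha, hb, Int.gcd_mul_right, hab, one_mul, Int.natAbs_natCast]
  refine ⟨![a, b], by exact_mod_cast hg, by simpa [Int.isCoprime_iff_gcd_eq_one] using hab, ?_⟩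
  rw [hgg]
  funext i
  fin_cases i <;> simp [ha, hb, mul_comm]

/-- For `ℓ ≡ 1` the representatives of `T_ℓ` are congruent to elements of `Γ₀(M)`. -/
theorem exists_gamma0_congr_hRep {ℓ : ℕ} [Fact ℓ.Prime] (hℓ : (ℓ : ZMod M) = 1) (j : HIdx M ℓ) :
    ∃ e : Gamma0 M, ∀ a b, (M : ℤ) ∣ hRep M ℓ j a b - ((e : SL(2, ℤ)) : Mat2) a b := by
  have hl : (M : ℤ) ∣ (ℓ : ℤ) - 1 := by
    rw [← ZMod.intCast_zmod_eq_zero_iff_dvd]; simp [hℓ]
  obtain ⟨x, hx⟩ := j
  induction x using OnePoint.rec with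
  | infty =>
    refine ⟨1, fun a b => ?_⟩
    fin_cases a <;> fin_cases b <;> simp [hRep, hl]
  | coe t =>
    refine ⟨⟨T ^ (t.val : ℤ), Gamma0_mem.mpr (by simp [coe_T_zpow])⟩, fun a b => ?_⟩
    fin_cases a <;> fin_cases b <;> simp [hRep, coe_T_zpow, hl]

/-- For `ℓ ≡ 1` the image of a primitive vector under a matrix of determinant `ℓ` is a primitive
vector times `1` or `ℓ`. -/
theorem exists_content_mulVec {ℓ : ℕ} [Fact ℓ.Prime] (hℓ : (ℓ : ZMod M) = 1) {A : Mat2}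
    (hA : A.det = ℓ) {v0 : V2} (hv0 : IsCoprime (v0 0) (v0 1)) :
    ∃ (m : ℤ) (w : V2), m ≠ 0 ∧ IsCoprime (w 0) (w 1) ∧ A.mulVec v0 = m • w ∧
      (M : ℤ) ∣ m - 1 := by
  have hℓ0 : (ℓ : ℤ) ≠ 0 := by exact_mod_cast (Fact.out : ℓ.Prime).ne_zero
  set u := A.mulVec v0
  obtain ⟨r, s, hrs⟩ := hv0
  have hcomb : ∃ r' s' : ℤ, r' * u 0 + s' * u 1 = ℓ := by
    rw [← hA, Matrix.det_fin_two]
    refine ⟨r * A 1 1 - s * A 1 0, s * A 0 0 - r * A 0 1, ?_⟩
    simp only [u, Matrix.mulVec, dotProduct, Fin.sum_univ_two]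
    linear_combination (A 0 0 * A 1 1 - A 0 1 * A 1 0) * hrs
  obtain ⟨r', s', hrs'⟩ := hcomb
  by_cases hd : (ℓ : ℤ) ∣ u 0 ∧ (ℓ : ℤ) ∣ u 1
  · obtain ⟨⟨a, ha⟩, ⟨b, hb⟩⟩ := hd
    refine ⟨ℓ, ![a, b], hℓ0, ⟨r', s', ?_⟩, ?_, ?_⟩
    · refine mul_left_cancel₀ hℓ0 ?_
      simp only [Matrix.cons_val_zero, Matrix.cons_val_one]
      linear_combination hrs' - r' * ha - s' * hb
    · funext i; fin_cases i <;> simp [ha, hb]
    · rw [← ZMod.intCast_zmod_eq_zero_iff_dvd]; simp [hℓ]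
  · refine ⟨1, u, one_ne_zero, ?_, (one_smul _ u).symm, by simp⟩
    rw [Int.isCoprime_iff_gcd_eq_one]
    have h1 : (Int.gcd (u 0) (u 1) : ℤ) ∣ (ℓ : ℤ) := by
      rw [← hrs']
      exact dvd_add (dvd_mul_of_dvd_right (Int.gcd_dvd_left _ _) _)
        (dvd_mul_of_dvd_right (Int.gcd_dvd_right _ _) _)
    rcases (Nat.dvd_prime (Fact.out : ℓ.Prime)).mp (Int.natCast_dvd_natCast.mp h1) with h2 | h2
    · exact h2
    · exact absurd ⟨h2 ▸ Int.gcd_dvd_left _ _, h2 ▸ Int.gcd_dvd_right _ _⟩ hd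

/-- An invariant function of cusps is unchanged by the representatives of `T_ℓ`, `ℓ ≡ 1`. -/
theorem cuspFun_hRep {k : Type*} {ℓ : ℕ} [Fact ℓ.Prime] (hℓ : (ℓ : ZMod M) = 1) {f : V2 → k}
    (hf : ∀ (e : Gamma0 M) {u : V2}, u ≠ 0 → f (((e : SL(2, ℤ)) : Mat2).mulVec u) = f u)
    (hs : ∀ {c : ℤ}, c ≠ 0 → ∀ u : V2, f (c • u) = f u) (j : HIdx M ℓ) {v : V2} (hv : v ≠ 0) :
    f ((hRep M ℓ j).mulVec v) = f v := by
  -- reduce to a primitive vector
  obtain ⟨g₀, v0, hg₀, hv0, hvv⟩ := exists_eq_smul_primitive hv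
  rw [hvv, Matrix.mulVec_smul, hs hg₀, hs hg₀]
  -- congruent to a translate by the triangular element
  obtain ⟨e, he⟩ := exists_gamma0_congr_hRep hℓ j
  set A := hRep M ℓ j
  have hA : A.det = ℓ := det_hRep j
  set z := ((e : SL(2, ℤ)) : Mat2).mulVec v0
  have hz : IsCoprime (z 0) (z 1) := by
    obtain ⟨r, s, hrs⟩ := hv0
    have hd := ((e : SL(2, ℤ))).det_coe
    rw [Matrix.det_fin_two] at hd
    refine ⟨r * ((e : SL(2, ℤ)) : Mat2) 1 1 - s * ((e : SL(2, ℤ)) : Mat2) 1 0,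
      s * ((e : SL(2, ℤ)) : Mat2) 0 0 - r * ((e : SL(2, ℤ)) : Mat2) 0 1, ?_⟩
    simp only [z, Matrix.mulVec, dotProduct, Fin.sum_univ_two]
    linear_combination (r * v0 0 + s * v0 1) * hd + hrs
  -- the content of `A v0`
  set u := A.mulVec v0
  obtain ⟨m, w, hm, hw, (huw : u = m • w), hmM⟩ := exists_content_mulVec hℓ (A := A) hA hv0
  rw [huw, hs hm]
  obtain ⟨g, hg, hgw⟩ := exists_gamma_mulVec (M := M) hz hw fun i => by
    obtain ⟨x0, hx0⟩ := he i 0
    obtain ⟨x1, hx1⟩ := he i 1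
    obtain ⟨mm, hmm⟩ := hmM
    have hu : u i = m * w i := by rw [huw]; simp
    refine ⟨x0 * v0 0 + x1 * v0 1 - mm * w i, ?_⟩
    simp only [z, u, Matrix.mulVec, dotProduct, Fin.sum_univ_two] at hu ⊢
    linear_combination -hu + v0 0 * hx0 + v0 1 * hx1 - w i * hmm
  have hv0n : v0 ≠ 0 := fun h => by
    rw [h] at hv0
    exact not_isCoprime_zero_zero hv0
  rw [← hgw, hf ⟨g, Gamma0_mem.mpr (Gamma_mem.mp hg).2.2.1⟩
    (mulVec_ne_zero (det_coe_pos _).ne' hv0n),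
    hf e hv0n]

end FermatAgent.HM.Dual
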