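import Fermat.Agent.HM.Dual.Cocycle
import Fermat.Agent.HM.H1.Parabolic
import Mathlib.Algebra.BigOperators.Finprod

/-!
# The homomorphism of a pair of cusps and correspondences

A transfer sends the homomorphism of a pair to a sum of homomorphisms of translated pairs, and
the class of a symbol to the class of the translated symbol.
-/

set_option autoImplicit false

noncomputable section

open scoped MatrixGroups

namespace FermatAgent.HM.Dual

variable {S : Submonoid Mat2} {Γ Γ' : Subgroup SL(2, ℤ)} {ι κ : Type} [Fintype ι] [Fintype κ]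
variable {k : Type*} [Field k]

/-- A finite sum of counts is one count over pairs. -/
lemma finsum_prod_fintype {α β : Type*} [Fintype α] (f : α × β → ℤ)
    (hf : ∀ a, (Function.support fun b => f (a, b)).Finite) :
    ∑ a, ∑ᶠ b, f (a, b) = ∑ᶠ p, f p := by
  have hfin : (Function.support f).Finite := by
    refine ((Set.finite_iUnion fun a => (hf a).image fun b => (a, b))).subset fun p hp => ?_
    exact Set.mem_iUnion.mpr ⟨p.1, p.2, hp, rfl⟩
  rw [finsum_curry f hfin, finsum_eq_sum_of_fintype]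

/-- The transfer of a count, from the position of each representative. -/
lemma sum_flow_fac (D : Corr S Γ' Γ ι) (hdet : ∀ i, 0 < (D.rep i).det) (u v : V2) (γ : Γ') :
    ∑ i, flow Γ u v 1 ((((D.fac γ i)⁻¹ : Γ) : SL(2, ℤ)) : Mat2) =
      ∑ i, flow Γ u v (D.rep i).adjugate
        ((((γ⁻¹ : Γ') : SL(2, ℤ)) : Mat2) * (D.rep i).adjugate) := by
  have hadj : ∀ i, 0 < (D.rep i).adjugate.det := fun i => by
    rw [Matrix.det_adjugate]; simpa using hdet i
  have key : ∀ i, flow Γ u v 1 ((((D.fac γ i)⁻¹ : Γ) : SL(2, ℤ)) : Mat2) =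
      flow Γ u v 1 (D.rep i).adjugate +
        flow Γ u v (D.rep i).adjugate ((((γ⁻¹ : Γ') : SL(2, ℤ)) : Mat2) * (D.rep i).adjugate) +
        flow Γ u v (D.rep (D.perm γ i)).adjugate 1 := fun i => by
    set e := (D.fac γ i)⁻¹ with he
    have h := congrArg Matrix.adjugate (D.fac_spec γ i)
    rw [Matrix.adjugate_mul_distrib, Matrix.adjugate_mul_distrib,
      ← Matrix.SpecialLinearGroup.coe_inv, ← Matrix.SpecialLinearGroup.coe_inv] at h
    change _ = (D.rep (D.perm γ i)).adjugate * ((e : SL(2, ℤ)) : Mat2) at h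
    rw [show ((((γ⁻¹ : Γ') : SL(2, ℤ)) : Mat2) * (D.rep i).adjugate) =
      (D.rep (D.perm γ i)).adjugate * ((e : SL(2, ℤ)) : Mat2) from h,
      ← flow_mul u v (D.rep (D.perm γ i)).adjugate 1 e, one_mul,
      flow_trans u v (by simp) (hadj i) (by rw [Matrix.det_mul]; simpa using hadj _),
      flow_trans u v (by simp) (by rw [Matrix.det_mul]; simpa using hadj _) (by simp)]
  rw [Finset.sum_congr rfl fun i _ => key i, Finset.sum_add_distrib, Finset.sum_add_distrib,
    Equiv.sum_comp (D.perm γ) fun i => flow Γ u v (D.rep i).adjugate 1]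
  have hz : ∑ i, flow Γ u v (D.rep i).adjugate 1 = -∑ i, flow Γ u v 1 (D.rep i).adjugate := by
    rw [← Finset.sum_neg_distrib]
    exact Finset.sum_congr rfl fun i _ => flow_swap_pos u v _ _
  rw [hz]
  abel

/-- **Naturality.** The transfer of the homomorphism of a pair is the sum of those of its
translates. -/
theorem homOp_cuspHom (D : Corr S Γ' Γ ι) (hdet : ∀ i, 0 < (D.rep i).det) (B : κ → Mat2)
    (e : ι × Γ ≃ κ × Γ')
    (he : ∀ p, (D.rep p.1).adjugate * ((p.2 : SL(2, ℤ)) : Mat2) =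
      (((e p).2 : SL(2, ℤ)) : Mat2) * B (e p).1) (u v : V2) :
    D.homOp (cuspHom Γ k u v) = ∑ j, cuspHom Γ' k ((B j).mulVec u) ((B j).mulVec v) := by
  refine AddMonoidHom.ext fun γ => ?_
  obtain ⟨γ, rfl⟩ := Additive.ofMul.surjective γ
  rw [Corr.homOp_apply, AddMonoidHom.finsetSum_apply]
  simp only [cuspHom_apply]
  rw [← Finset.mul_sum, ← Finset.mul_sum, ← Int.cast_sum, ← Int.cast_sum,
    sum_flow_fac D hdet u v γ]
  congr 2
  set G : Mat2 := (((γ⁻¹ : Γ') : SL(2, ℤ)) : Mat2)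
  have hadj : ∀ i, 0 < (D.rep i).adjugate.det := fun i => by
    rw [Matrix.det_adjugate]; simpa using hdet i
  let f₁ : ι × Γ → ℤ := fun p => sTerm (G * (D.rep p.1).adjugate) u v (p.2 : SL(2, ℤ)) -
    sTerm (D.rep p.1).adjugate u v (p.2 : SL(2, ℤ))
  let f₂ : κ × Γ' → ℤ := fun p => sTerm G ((B p.1).mulVec u) ((B p.1).mulVec v) (p.2 : SL(2, ℤ)) -
    sTerm 1 ((B p.1).mulVec u) ((B p.1).mulVec v) (p.2 : SL(2, ℤ))
  have hf₁ : ∀ i, (Function.support fun g => f₁ (i, g)).Finite := fun i => by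
    simp only [f₁]
    exact finite_flow (P := (D.rep i).adjugate) (P' := G * (D.rep i).adjugate) u v (hadj i)
      (by rw [Matrix.det_mul]; exact mul_pos (det_coe_pos _) (hadj i))
  have hf₂ : ∀ j, (Function.support fun g => f₂ (j, g)).Finite := fun j => by
    simp only [f₂]
    exact finite_flow (P := 1) (P' := G) ((B j).mulVec u) ((B j).mulVec v) (by simp) (det_coe_pos _)
  have h₁ := finsum_prod_fintype f₁ hf₁
  have h₂ := finsum_prod_fintype f₂ hf₂
  have e₁ : ∀ i, flow Γ u v (D.rep i).adjugate (G * (D.rep i).adjugate) =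
      ∑ᶠ g : Γ, f₁ (i, g) := fun i => by rw [flow]
  have e₂ : ∀ j, flow Γ' ((B j).mulVec u) ((B j).mulVec v) 1 G =
      ∑ᶠ g : Γ', f₂ (j, g) := fun j => by rw [flow]
  rw [Finset.sum_congr rfl fun i _ => e₁ i, Finset.sum_congr rfl fun j _ => e₂ j, h₁, h₂,
    ← finsum_comp_equiv e (f := f₂)]
  refine finsum_congr fun p => ?_
  simp only [f₁, f₂, sTerm, Matrix.mulVec_mulVec, mul_assoc, one_mul]
  rw [he p]

/-- The transfer of the class of a symbol. -/
theorem IsSymbol.homOp_cls {a : V2 → V2 → k} (h : IsSymbol Γ a) (D : Corr S Γ' Γ ι) {x : V2}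
    (hx : x ≠ 0) (γ : Γ') :
    D.homOp h.cls (Additive.ofMul γ) = ∑ i, a ((D.rep i).mulVec x)
      ((D.rep i).mulVec (((γ : SL(2, ℤ)) : Mat2).mulVec x)) := by
  rw [Corr.homOp_apply]
  have hB : ∀ i, (D.rep i).mulVec x ≠ 0 := fun i => mulVec_ne_zero (D.det_ne i) hx
  have key : ∀ i, a ((D.rep i).mulVec x) ((D.rep i).mulVec (((γ : SL(2, ℤ)) : Mat2).mulVec x)) =
      a ((D.rep i).mulVec x) x + h.cls (Additive.ofMul (D.fac γ i)) +
        a x ((D.rep (D.perm γ i)).mulVec x) := fun i => by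
    rw [Matrix.mulVec_mulVec, D.fac_spec, ← Matrix.mulVec_mulVec, h.cls_apply hx,
      ← h.mulVec (D.fac γ i) x ((D.rep (D.perm γ i)).mulVec x),
      h.add (hB i) hx (mulVec_ne_zero (by simp) hx),
      h.add (hB i) (mulVec_ne_zero (by simp) hx) (mulVec_ne_zero (by simp) (hB _))]
  rw [Finset.sum_congr rfl fun i _ => key i, Finset.sum_add_distrib, Finset.sum_add_distrib,
    Equiv.sum_comp (D.perm γ) fun i => a x ((D.rep i).mulVec x)]
  have hz : ∑ i, a ((D.rep i).mulVec x) x = -∑ i, a x ((D.rep i).mulVec x) := by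
    rw [← Finset.sum_neg_distrib]
    exact Finset.sum_congr rfl fun i _ => h.swap hx (hB i)
  rw [hz]
  abel

end FermatAgent.HM.Dual
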