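import Fermat.Agent.HM.H1.Corr
import Mathlib.Algebra.BigOperators.Finprod
import Mathlib.Data.Int.Interval
import Mathlib.Tactic.LinearCombination

/-!
# The integral sign of a pair of cusps

For integer vectors `u`, `v` the sign of `det(u, v)` times the sign of `u · v` records on which
side of the geodesic between the two cusps the point `i` lies; transporting by a matrix gives
every point in the orbit of `i`. Two positions differ for finitely many translates only, and
around a triangle the sum of the three signs is constant up to finitely many translates.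
-/

set_option autoImplicit false

noncomputable section

open scoped MatrixGroups

namespace FermatAgent.HM.Dual

/-- Integer vectors. -/
abbrev V2 := Fin 2 → ℤ

/-- The determinant of two vectors. -/
def det2 (u v : V2) : ℤ := u 0 * v 1 - u 1 * v 0

/-- The scalar product of two vectors. -/
def dot2 (u v : V2) : ℤ := u 0 * v 0 + u 1 * v 1

/-- The sign of a pair. -/
def pairSign (u v : V2) : ℤ := (det2 u v).sign * (dot2 u v).sign

lemma det2_smul (a b : ℤ) (u v : V2) : det2 (a • u) (b • v) = a * b * det2 u v := by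
  simp only [det2, Pi.smul_apply, smul_eq_mul]; ring

lemma dot2_smul (a b : ℤ) (u v : V2) : dot2 (a • u) (b • v) = a * b * dot2 u v := by
  simp only [dot2, Pi.smul_apply, smul_eq_mul]; ring

lemma det2_swap (u v : V2) : det2 v u = -det2 u v := by
  simp only [det2]; ring

lemma dot2_comm (u v : V2) : dot2 v u = dot2 u v := by
  simp only [dot2]; ring

lemma dot2_self_pos {u : V2} (hu : u ≠ 0) : 0 < dot2 u u := by
  simp only [dot2]
  by_contra! h
  refine hu (funext fun i => ?_)
  fin_cases i <;> simp <;> nlinarith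

lemma det2_mulVec (A : Mat2) (u v : V2) :
    det2 (A.mulVec u) (A.mulVec v) = A.det * det2 u v := by
  simp only [det2, Matrix.mulVec, dotProduct, Fin.sum_univ_two, Matrix.det_fin_two]; ring

/-- A matrix of nonzero determinant sends nonzero vectors to nonzero vectors. -/
lemma mulVec_ne_zero {A : Mat2} (hA : A.det ≠ 0) {u : V2} (hu : u ≠ 0) : A.mulVec u ≠ 0 := by
  intro h
  have h1 : (A.adjugate * A).mulVec u = 0 := by rw [← Matrix.mulVec_mulVec, h, Matrix.mulVec_zero]
  rw [Matrix.adjugate_mul, Matrix.smul_mulVec, Matrix.one_mulVec] at h1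
  exact hu ((smul_eq_zero.mp h1).resolve_left hA)

lemma sign_sq_of_ne_zero {a : ℤ} (ha : a ≠ 0) : a.sign * a.sign = 1 := by
  rcases lt_or_gt_of_ne ha with h | h <;>
    simp [Int.sign_eq_neg_one_of_neg, Int.sign_eq_one_of_pos, h]

lemma pairSign_smul {a b : ℤ} (ha : a ≠ 0) (hb : b ≠ 0) (u v : V2) :
    pairSign (a • u) (b • v) = pairSign u v := by
  rw [pairSign, pairSign, det2_smul, dot2_smul, Int.sign_mul, Int.sign_mul, Int.sign_mul,
    Int.sign_mul]
  linear_combination (det2 u v).sign * (dot2 u v).sign * b.sign * b.sign * sign_sq_of_ne_zero ha +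
    (det2 u v).sign * (dot2 u v).sign * sign_sq_of_ne_zero hb

lemma pairSign_swap (u v : V2) : pairSign v u = -pairSign u v := by
  rw [pairSign, pairSign, det2_swap, dot2_comm, Int.sign_neg, neg_mul]

lemma pairSign_of_det2_eq_zero {u v : V2} (h : det2 u v = 0) : pairSign u v = 0 := by
  simp [pairSign, h]

/-! ### Bounds -/

lemma abs_le_of_dot2_le {u : V2} {K : ℤ} (h : dot2 u u ≤ K) (i : Fin 2) : -K ≤ u i ∧ u i ≤ K := by
  simp only [dot2] at h
  fin_cases i <;> simp <;>
    constructor <;> nlinarith [mul_self_nonneg (u 0), mul_self_nonneg (u 1),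
      Int.le_self_sq (u 0), Int.le_self_sq (-u 0), Int.le_self_sq (u 1), Int.le_self_sq (-u 1)]

lemma finite_dot2_le (K : ℤ) : {u : V2 | dot2 u u ≤ K}.Finite := by
  refine (Set.Finite.pi fun _ : Fin 2 => Set.finite_Icc (-K) K).subset fun u hu i _ => ?_
  exact abs_le_of_dot2_le hu i

/-- An element of the group is determined by its values on two independent vectors. -/
lemma eq_of_mulVec {u v : V2} (h : det2 u v ≠ 0) {g g' : SL(2, ℤ)}
    (hu : (g : Mat2).mulVec u = (g' : Mat2).mulVec u)
    (hv : (g : Mat2).mulVec v = (g' : Mat2).mulVec v) : g = g' := by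
  refine Subtype.ext (Matrix.ext fun i j => ?_)
  have h1 := congrFun hu i
  have h2 := congrFun hv i
  simp only [Matrix.mulVec, dotProduct, Fin.sum_univ_two] at h1 h2
  refine mul_right_cancel₀ h ?_
  fin_cases j <;> simp only [det2, Fin.zero_eta, Fin.mk_one, Fin.isValue]
  · linear_combination v 1 * h1 - u 1 * h2
  · linear_combination u 0 * h2 - v 0 * h1

lemma finite_bounded_translates {u v : V2} (h : det2 u v ≠ 0) (K : ℤ) :
    {g : SL(2, ℤ) | dot2 ((g : Mat2).mulVec u) ((g : Mat2).mulVec u) ≤ K ∧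
      dot2 ((g : Mat2).mulVec v) ((g : Mat2).mulVec v) ≤ K}.Finite := by
  refine Set.Finite.of_finite_image (f := fun g : SL(2, ℤ) =>
    ((g : Mat2).mulVec u, (g : Mat2).mulVec v))
    (((finite_dot2_le K).prod (finite_dot2_le K)).subset ?_) ?_
  · rintro _ ⟨g, hg, rfl⟩; exact hg
  · intro g _ g' _ hgg
    exact eq_of_mulVec h (congrArg Prod.fst hgg) (congrArg Prod.snd hgg)

/-- The square of the Frobenius norm. -/
def matNorm (P : Mat2) : ℤ := P 0 0 ^ 2 + P 0 1 ^ 2 + P 1 0 ^ 2 + P 1 1 ^ 2

lemma one_le_matNorm {P : Mat2} (hP : P.det ≠ 0) : 1 ≤ matNorm P := by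
  by_contra! h
  rw [matNorm] at h
  rw [Matrix.det_fin_two] at hP
  have h0 : P 0 0 = 0 := by nlinarith
  have h1 : P 0 1 = 0 := by nlinarith
  exact hP (by rw [h0, h1]; ring)

lemma dot2_le_matNorm_mul (P : Mat2) (u : V2) :
    dot2 (P.mulVec u) (P.mulVec u) ≤ matNorm P * dot2 u u := by
  simp only [dot2, matNorm, Matrix.mulVec, dotProduct, Fin.sum_univ_two]
  nlinarith [sq_nonneg (P 0 0 * u 1 - P 0 1 * u 0), sq_nonneg (P 1 0 * u 1 - P 1 1 * u 0)]

lemma dot2_le_of_mulVec {P : Mat2} (hP : P.det ≠ 0) (u : V2) :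
    dot2 u u ≤ matNorm P * dot2 (P.mulVec u) (P.mulVec u) := by
  have h := dot2_le_matNorm_mul P.adjugate (P.mulVec u)
  rw [Matrix.mulVec_mulVec, Matrix.adjugate_mul, Matrix.smul_mulVec, Matrix.one_mulVec,
    dot2_smul] at h
  have hn : matNorm P.adjugate = matNorm P := by
    simp only [matNorm, Matrix.adjugate_fin_two, Matrix.of_apply, Matrix.cons_val',
      Matrix.cons_val_zero, Matrix.cons_val_one, Matrix.cons_val_fin_one]
    ring
  rw [hn] at h
  have h0 : 0 ≤ dot2 u u := by simp only [dot2]; nlinarith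
  have h1 : 1 ≤ P.det * P.det := by
    rcases lt_or_gt_of_ne hP with hd | hd <;> nlinarith
  nlinarith

/-- The determinant of a positive form is at most the square of its trace. -/
lemma gram_det_le (a b c : ℤ) : a * c - b ^ 2 ≤ (a + c) ^ 2 := by
  nlinarith [sq_nonneg b, sq_nonneg a, sq_nonneg c, sq_nonneg (a + c)]

lemma weighted_le {lam mu n n' : ℤ} (hlam : 0 ≤ lam) (hmu : 0 ≤ mu) (hn : 1 ≤ n) (hn' : 1 ≤ n') :
    lam * n + mu * n' ≤ n * n' * (lam * n' + mu * n) := by
  have e1 : lam * n ≤ lam * n * (n' * n') :=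
    le_mul_of_one_le_right (mul_nonneg hlam (by omega)) (one_le_mul_of_one_le_of_one_le hn' hn')
  have e2 : mu * n' ≤ mu * n' * (n * n) :=
    le_mul_of_one_le_right (mul_nonneg hmu (by omega)) (one_le_mul_of_one_le_of_one_le hn hn)
  linear_combination e1 + e2

lemma dot2_self_nonneg (u : V2) : 0 ≤ dot2 u u := add_nonneg (mul_self_nonneg _) (mul_self_nonneg _)

lemma weighted_dot2_le {P P' : Mat2} (hP : P.det ≠ 0) (hP' : P'.det ≠ 0) {lam mu : ℤ}
    (hlam : 0 ≤ lam) (hmu : 0 ≤ mu) (u : V2) :
    (lam * matNorm P' + mu * matNorm P) * dot2 u u ≤ matNorm P * matNorm P' *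
      (lam * dot2 (P.mulVec u) (P.mulVec u) + mu * dot2 (P'.mulVec u) (P'.mulVec u)) := by
  have h1 := mul_le_mul_of_nonneg_left (dot2_le_of_mulVec hP u)
    (mul_nonneg hlam ((one_le_matNorm hP').trans' zero_le_one))
  have h2 := mul_le_mul_of_nonneg_left (dot2_le_of_mulVec hP' u)
    (mul_nonneg hmu ((one_le_matNorm hP).trans' zero_le_one))
  linear_combination h1 + h2

/-- Lagrange's identity for a positive combination of two forms. -/
lemma bound_of_combination {P P' : Mat2} (hP : P.det ≠ 0) (hP' : P'.det ≠ 0) {lam mu : ℤ}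
    (hlam : 0 ≤ lam) (hmu : 0 ≤ mu) (hpos : 0 < lam + mu) {u v : V2}
    (h : lam * dot2 (P.mulVec u) (P.mulVec v) + mu * dot2 (P'.mulVec u) (P'.mulVec v) = 0) :
    dot2 u u * dot2 v v ≤ (matNorm P * matNorm P') ^ 4 * det2 u v ^ 2 := by
  have hn := one_le_matNorm hP
  have hn' := one_le_matNorm hP'
  have lu := weighted_dot2_le hP hP' hlam hmu u
  have lv := weighted_dot2_le hP hP' hlam hmu v
  have ht := weighted_le hlam hmu hn hn'
  set Qu := lam * dot2 (P.mulVec u) (P.mulVec u) + mu * dot2 (P'.mulVec u) (P'.mulVec u) with hQu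
  set Qv := lam * dot2 (P.mulVec v) (P.mulVec v) + mu * dot2 (P'.mulVec v) (P'.mulVec v) with hQv
  -- the Gram matrix of the combination
  obtain ⟨a, ha⟩ : ∃ a, a = lam * (P 0 0 ^ 2 + P 1 0 ^ 2) + mu * (P' 0 0 ^ 2 + P' 1 0 ^ 2) :=
    ⟨_, rfl⟩
  obtain ⟨b, hb⟩ : ∃ b, b = lam * (P 0 0 * P 0 1 + P 1 0 * P 1 1) +
      mu * (P' 0 0 * P' 0 1 + P' 1 0 * P' 1 1) := ⟨_, rfl⟩
  obtain ⟨c, hc⟩ : ∃ c, c = lam * (P 0 1 ^ 2 + P 1 1 ^ 2) + mu * (P' 0 1 ^ 2 + P' 1 1 ^ 2) :=
    ⟨_, rfl⟩
  have hid : Qu * Qv = (a * c - b ^ 2) * det2 u v ^ 2 + 0 ^ 2 := by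
    rw [← h, hQu, hQv, ha, hb, hc]
    simp only [dot2, det2, Matrix.mulVec, dotProduct, Fin.sum_univ_two]
    ring
  have hdet : a * c - b ^ 2 ≤ (lam * matNorm P + mu * matNorm P') ^ 2 :=
    (gram_det_le a b c).trans
      (le_of_eq (by rw [ha, hc, matNorm, matNorm]; ring))
  generalize matNorm P = n at hn lu lv ht hdet ⊢
  generalize matNorm P' = n' at hn' lu lv ht hdet ⊢
  generalize Qu = A at lu hid
  generalize Qv = B at lv hid
  have hm : 0 < lam * n' + mu * n := by
    rcases lt_or_eq_of_le hlam with h' | h'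
    · exact add_pos_of_pos_of_nonneg (mul_pos h' (by omega)) (mul_nonneg hmu (by omega))
    · rw [← h']
      simpa using mul_pos (show 0 < mu by omega) (show 0 < n by omega)
  have ht0 : 0 ≤ lam * n + mu * n' :=
    add_nonneg (mul_nonneg hlam (by omega)) (mul_nonneg hmu (by omega))
  generalize lam * n' + mu * n = m at hm lu lv ht
  generalize lam * n + mu * n' = t at ht ht0 hdet
  have hu0 := dot2_self_nonneg u
  have hv0 := dot2_self_nonneg v
  refine le_of_mul_le_mul_right ?_ (mul_pos hm hm)
  calc dot2 u u * dot2 v v * (m * m) = m * dot2 u u * (m * dot2 v v) := by ring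
    _ ≤ n * n' * A * (n * n' * B) :=
        mul_le_mul lu lv (mul_nonneg hm.le hv0) (le_trans (mul_nonneg hm.le hu0) lu)
    _ = (n * n') ^ 2 * ((a * c - b ^ 2) * det2 u v ^ 2) := by
        rw [show n * n' * A * (n * n' * B) = (n * n') ^ 2 * (A * B) by ring, hid]; ring
    _ ≤ (n * n') ^ 2 * (t ^ 2 * det2 u v ^ 2) := by gcongr
    _ ≤ (n * n') ^ 2 * ((n * n' * m) ^ 2 * det2 u v ^ 2) := by gcongr
    _ = _ := by ring

/-- Two signs differ only where a positive combination of the scalar products vanishes. -/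
lemma exists_combination {x y : ℤ} (h : x.sign ≠ y.sign) :
    ∃ lam mu : ℤ, 0 ≤ lam ∧ 0 ≤ mu ∧ 0 < lam + mu ∧ lam * x + mu * y = 0 := by
  rcases lt_trichotomy x 0 with hx | hx | hx <;> rcases lt_trichotomy y 0 with hy | hy | hy
  all_goals first
    | exact ⟨1, 0, by omega, le_rfl, by omega, by subst hx; ring⟩
    | exact ⟨0, 1, le_rfl, by omega, by omega, by subst hy; ring⟩
    | exact ⟨|y|, |x|, abs_nonneg _, abs_nonneg _, by simp [abs_pos, hx.ne, hy.ne', add_pos],
        by rw [abs_of_neg hx, abs_of_pos hy]; ring⟩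
    | exact ⟨|y|, |x|, abs_nonneg _, abs_nonneg _, by simp [abs_pos, hx.ne', hy.ne, add_pos],
        by rw [abs_of_pos hx, abs_of_neg hy]; ring⟩
    | (exfalso; exact h (by simp [Int.sign_eq_neg_one_of_neg, Int.sign_eq_one_of_pos, hx, hy]))

/-- The sign of the `g`-translate of a pair seen from `P`. -/
def sTerm (P : Mat2) (u v : V2) (g : SL(2, ℤ)) : ℤ :=
  pairSign ((P * (g : Mat2)).mulVec u) ((P * (g : Mat2)).mulVec v)

/-- Left translation of the group variable moves the position by the translating matrix. -/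
lemma sTerm_mul_left (P : Mat2) (u v : V2) (e g : SL(2, ℤ)) :
    sTerm P u v (e * g) = sTerm (P * (e : Mat2)) u v g := by
  rw [sTerm, sTerm, Matrix.SpecialLinearGroup.coe_mul, mul_assoc]

/-- Right translation of the group variable moves both cusps by the translating matrix. -/
lemma sTerm_mul_right (P : Mat2) (u v : V2) (e g : SL(2, ℤ)) :
    sTerm P u v (g * e) = sTerm P ((e : Mat2).mulVec u) ((e : Mat2).mulVec v) g := by
  rw [sTerm, sTerm, Matrix.SpecialLinearGroup.coe_mul, ← mul_assoc, Matrix.mulVec_mulVec,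
    Matrix.mulVec_mulVec]

/-- The sign term depends on the two cusps only up to nonzero scalars. -/
lemma sTerm_smul {a b : ℤ} (ha : a ≠ 0) (hb : b ≠ 0) (P : Mat2) (u v : V2) (g : SL(2, ℤ)) :
    sTerm P (a • u) (b • v) g = sTerm P u v g := by
  rw [sTerm, sTerm, Matrix.mulVec_smul, Matrix.mulVec_smul, pairSign_smul ha hb]

/-- The sign term is antisymmetric in the two cusps. -/
lemma sTerm_swap (P : Mat2) (u v : V2) (g : SL(2, ℤ)) : sTerm P v u g = -sTerm P u v g :=
  pairSign_swap _ _

/-- **Finiteness.** Two positions differ on finitely many translates of a pair. -/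
theorem finite_sTerm_sub (u v : V2) {P P' : Mat2} (hP : 0 < P.det) (hP' : 0 < P'.det) :
    (Function.support fun g => sTerm P' u v g - sTerm P u v g).Finite := by
  by_cases hd : det2 u v = 0
  · refine Set.finite_empty.subset fun g hg => hg ?_
    simp [sTerm, pairSign_of_det2_eq_zero, det2_mulVec, hd]
  · refine (finite_bounded_translates hd ((matNorm P * matNorm P') ^ 4 * det2 u v ^ 2)).subset
      fun g hg => ?_
    set u' := (g : Mat2).mulVec u
    set v' := (g : Mat2).mulVec v
    have hd' : det2 u' v' = det2 u v := by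
      rw [det2_mulVec, Matrix.SpecialLinearGroup.det_coe, one_mul]
    have hne : (dot2 (P.mulVec u') (P.mulVec v')).sign ≠
        (dot2 (P'.mulVec u') (P'.mulVec v')).sign := fun he => by
      apply hg
      simp only [sTerm, pairSign, ← Matrix.mulVec_mulVec, det2_mulVec]
      change _ * (dot2 (P'.mulVec u') (P'.mulVec v')).sign -
        _ * (dot2 (P.mulVec u') (P.mulVec v')).sign = 0
      rw [he, Int.sign_mul P'.det, Int.sign_mul P.det, Int.sign_eq_one_of_pos hP,
        Int.sign_eq_one_of_pos hP']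
      ring
    obtain ⟨lam, mu, h1, h2, h3, h4⟩ := exists_combination hne
    have hb := bound_of_combination hP.ne' hP'.ne' h1 h2 h3 h4
    rw [hd'] at hb
    have hu : u' ≠ 0 := fun h0 => hd (by rw [← hd', h0]; simp [det2])
    have hv : v' ≠ 0 := fun h0 => hd (by rw [← hd', h0]; simp [det2])
    have hu1 := dot2_self_pos hu
    have hv1 := dot2_self_pos hv
    exact ⟨le_trans (le_mul_of_one_le_right hu1.le (by omega)) hb,
      le_trans (le_mul_of_one_le_left hv1.le (by omega)) hb⟩

/-! ### The triangle -/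

/-- The sum of the three signs around a triangle. -/
def triSign (u v w : V2) : ℤ := pairSign u v + pairSign v w + pairSign w u

/-- Its constant value. -/
def triConst (u v w : V2) : ℤ := -(det2 u v * det2 v w * det2 w u).sign

lemma dot2_identity (u v w : V2) :
    dot2 u v * dot2 v w * det2 w u + dot2 v w * dot2 w u * det2 u v +
      dot2 w u * dot2 u v * det2 v w = det2 u v * det2 v w * det2 w u := by
  simp only [det2, dot2]; ring

lemma vec_identity (u v w : V2) :
    det2 v w * dot2 u u + det2 w u * dot2 u v + det2 u v * dot2 w u = 0 := by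
  simp only [det2, dot2]; ring

lemma lagrange (u v : V2) : dot2 u u * dot2 v v = det2 u v ^ 2 + dot2 u v ^ 2 := by
  simp only [det2, dot2]; ring

/-- A degenerate triangle. -/
lemma triSign_eq_zero_of_parallel {u v : V2} (hu : u ≠ 0) (hv : v ≠ 0) (h : det2 u v = 0)
    (w : V2) : triSign u v w = 0 := by
  have e : dot2 u u • v = dot2 u v • u := by
    rw [det2] at h
    funext i
    fin_cases i <;> simp [dot2]
    · linear_combination -(u 1) * h
    · linear_combination u 0 * h
  have huv : dot2 u v ≠ 0 := fun h0 => by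
    have := lagrange u v
    rw [h, h0] at this
    simp [(dot2_self_pos hu).ne', (dot2_self_pos hv).ne'] at this
  have h1 : pairSign v w = pairSign u w := by
    rw [← pairSign_smul (dot2_self_pos hu).ne' one_ne_zero v w, e, pairSign_smul huv one_ne_zero]
  rw [triSign, pairSign_of_det2_eq_zero h, h1, pairSign_swap u w]
  ring

lemma sign_mul_sign_of_ne_zero {e d a : ℤ} (he : e ≠ 0) (h : e = d * a) (x : ℤ) :
    d.sign * x.sign = e.sign * (x * a).sign := by
  have ha : a ≠ 0 := fun h0 => he (by rw [h, h0, mul_zero])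
  rw [h, Int.sign_mul, Int.sign_mul]
  linear_combination (-(d.sign * x.sign)) * sign_sq_of_ne_zero ha

lemma sq_le_or_sq_le {x y E : ℤ} (h0 : 0 ≤ x * y) (h : x * y ≤ E) : x ^ 2 ≤ E ∨ y ^ 2 ≤ E := by
  by_contra! hcon
  have h1 := mul_lt_mul_of_nonneg hcon.1 hcon.2 (le_trans h0 h) (le_trans h0 h)
  have h2 := mul_le_mul h h h0 (le_trans h0 h)
  linarith [show x ^ 2 * y ^ 2 = x * y * (x * y) by ring]

lemma bound_of_dot2_le {x y : V2} {e t : ℤ} (hx : x ≠ 0) (hy : y ≠ 0) (ht : t ≠ 0)
    (he : e = det2 x y * t) (h : (dot2 x y * t) ^ 2 ≤ e ^ 2) :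
    dot2 x x ≤ 2 * det2 x y ^ 2 ∧ dot2 y y ≤ 2 * det2 x y ^ 2 := by
  rw [he, mul_pow, mul_pow] at h
  have h1 := le_of_mul_le_mul_right h (by positivity)
  have h2 := lagrange x y
  have hx1 := dot2_self_pos hx
  have hy1 := dot2_self_pos hy
  have h3 : dot2 x x ≤ dot2 x x * dot2 y y := le_mul_of_one_le_right hx1.le hy1
  have h4 : dot2 y y ≤ dot2 x x * dot2 y y := le_mul_of_one_le_left hy1.le hx1
  exact ⟨by linarith, by linarith⟩

/-- Where the triangle sum is not its constant value, every vertex is bounded. -/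
lemma bound_of_triSign_ne {u v w : V2} (hu : u ≠ 0) (hv : v ≠ 0) (hw : w ≠ 0)
    (h : triSign u v w ≠ triConst u v w) :
    dot2 u u ≤ 2 * (det2 w u ^ 2 + det2 u v ^ 2) ∧
      dot2 v v ≤ 2 * (det2 u v ^ 2 + det2 v w ^ 2) ∧
      det2 u v ≠ 0 := by
  have hd1 : det2 u v ≠ 0 := fun h0 => h (by
    rw [triSign_eq_zero_of_parallel hu hv h0, triConst, h0]; simp)
  have hd2 : det2 v w ≠ 0 := fun h0 => h (by
    have := triSign_eq_zero_of_parallel hv hw h0 u
    rw [triSign] at this
    rw [triConst, h0, triSign]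
    simp
    linarith)
  have hd3 : det2 w u ≠ 0 := fun h0 => h (by
    have := triSign_eq_zero_of_parallel hw hu h0 v
    rw [triConst, h0, triSign]
    rw [triSign] at this
    simp
    linarith)
  set e := det2 u v * det2 v w * det2 w u with he'
  have he : e ≠ 0 := mul_ne_zero (mul_ne_zero hd1 hd2) hd3
  set a := dot2 u v * (det2 v w * det2 w u) with ha'
  set b := dot2 v w * (det2 w u * det2 u v) with hb'
  set c := dot2 w u * (det2 u v * det2 v w) with hc'
  have huu := dot2_self_pos hu
  have hvv := dot2_self_pos hv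
  have hww := dot2_self_pos hw
  have hac : a + c = -(det2 v w ^ 2 * dot2 u u) := by
    linear_combination det2 v w * vec_identity u v w
  have hab : a + b = -(det2 w u ^ 2 * dot2 v v) := by
    linear_combination det2 w u * vec_identity v w u
  have hbc : b + c = -(det2 u v ^ 2 * dot2 w w) := by
    linear_combination det2 u v * vec_identity w u v
  have hid : a * b + b * c + c * a = e ^ 2 := by
    linear_combination (det2 u v * det2 v w * det2 w u) * dot2_identity u v w
  have hsum : triSign u v w = e.sign * (a.sign + b.sign + c.sign) := by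
    rw [triSign, pairSign, pairSign, pairSign,
      sign_mul_sign_of_ne_zero he (a := det2 v w * det2 w u) (by rw [he']; ring),
      sign_mul_sign_of_ne_zero he (d := det2 v w) (a := det2 w u * det2 u v) (by rw [he']; ring),
      sign_mul_sign_of_ne_zero he (d := det2 w u) (a := det2 u v * det2 v w) (by rw [he']; ring)]
    ring
  have hp1 : 0 < det2 v w ^ 2 * dot2 u u := by positivity
  have hp2 : 0 < det2 w u ^ 2 * dot2 v v := by positivity
  have hp3 : 0 < det2 u v ^ 2 * dot2 w w := by positivity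
  have hle : a ≤ 0 ∧ b ≤ 0 ∧ c ≤ 0 := by
    by_contra hcon
    apply h
    rw [hsum, triConst, ← he']
    suffices hs : a.sign + b.sign + c.sign = -1 by rw [hs]; ring
    simp only [not_and_or, not_le] at hcon
    rcases hcon with hpos | hpos | hpos
    · rw [Int.sign_eq_one_of_pos hpos, Int.sign_eq_neg_one_of_neg (show b < 0 by linarith),
        Int.sign_eq_neg_one_of_neg (show c < 0 by linarith)]
      norm_num
    · rw [Int.sign_eq_one_of_pos hpos, Int.sign_eq_neg_one_of_neg (show a < 0 by linarith),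
        Int.sign_eq_neg_one_of_neg (show c < 0 by linarith)]
      norm_num
    · rw [Int.sign_eq_one_of_pos hpos, Int.sign_eq_neg_one_of_neg (show a < 0 by linarith),
        Int.sign_eq_neg_one_of_neg (show b < 0 by linarith)]
      norm_num
  obtain ⟨ha, hb, hc⟩ := hle
  have hnab := mul_nonneg_of_nonpos_of_nonpos ha hb
  have hnbc := mul_nonneg_of_nonpos_of_nonpos hb hc
  have hnca := mul_nonneg_of_nonpos_of_nonpos hc ha
  refine ⟨?_, ?_, hd1⟩
  · rcases sq_le_or_sq_le hnca (by linarith : c * a ≤ e ^ 2) with h' | h'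
    · have := (bound_of_dot2_le hw hu (mul_ne_zero hd1 hd2) (by rw [he']; ring) h').2
      linarith [sq_nonneg (det2 u v)]
    · have := (bound_of_dot2_le hu hv (mul_ne_zero hd2 hd3) (by rw [he']; ring) h').1
      linarith [sq_nonneg (det2 w u)]
  · rcases sq_le_or_sq_le hnab (by linarith : a * b ≤ e ^ 2) with h' | h'
    · have := (bound_of_dot2_le hu hv (mul_ne_zero hd2 hd3) (by rw [he']; ring) h').2
      linarith [sq_nonneg (det2 v w)]
    · have := (bound_of_dot2_le hv hw (mul_ne_zero hd3 hd1) (by rw [he']; ring) h').1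
      linarith [sq_nonneg (det2 u v)]

/-- The triangle sum seen from `P` differs from its constant on finitely many translates. -/
theorem finite_triangle {u v w : V2} (hu : u ≠ 0) (hv : v ≠ 0) (hw : w ≠ 0) {P : Mat2}
    (hP : 0 < P.det) :
    (Function.support fun g =>
      sTerm P u v g + sTerm P v w g + sTerm P w u g - triConst u v w).Finite := by
  obtain ⟨K, hK⟩ : ∃ K, K = matNorm P * (2 * P.det ^ 2 *
      (det2 w u ^ 2 + det2 u v ^ 2 + det2 v w ^ 2)) := ⟨_, rfl⟩
  by_cases hd : det2 u v = 0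
  · refine Set.finite_empty.subset fun g hg => hg ?_
    have hg0 : (P * (g : Mat2)).det ≠ 0 := by simp [hP.ne']
    have := triSign_eq_zero_of_parallel (mulVec_ne_zero hg0 hu) (mulVec_ne_zero hg0 hv)
      (by rw [det2_mulVec, hd, mul_zero]) ((P * (g : Mat2)).mulVec w)
    rw [triSign] at this
    simp only [sTerm, triConst, hd, zero_mul, Int.sign_zero, neg_zero, sub_zero]
    exact this
  refine (finite_bounded_translates hd K).subset fun g hg => ?_
  have hdet : (P * (g : Mat2)).det = P.det := by simp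
  have hg0 : (P * (g : Mat2)).det ≠ 0 := by rw [hdet]; exact hP.ne'
  set u' := (P * (g : Mat2)).mulVec u
  set v' := (P * (g : Mat2)).mulVec v
  set w' := (P * (g : Mat2)).mulVec w
  have hc : triConst u' v' w' = triConst u v w := by
    simp only [triConst, u', v', w', det2_mulVec, hdet, Int.sign_mul,
      Int.sign_eq_one_of_pos hP, one_mul]
  obtain ⟨h1, h2, -⟩ := bound_of_triSign_ne (mulVec_ne_zero hg0 hu) (mulVec_ne_zero hg0 hv)
    (mulVec_ne_zero hg0 hw) (u := u') (v := v') (w := w') fun he => hg (by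
      change triSign u' v' w' - triConst u v w = 0
      rw [he, hc, sub_self])
  simp only [u', v', w', det2_mulVec, hdet] at h1 h2
  have hn := one_le_matNorm hP.ne'
  constructor
  · refine (dot2_le_of_mulVec hP.ne' _).trans ?_
    rw [Matrix.mulVec_mulVec, hK]
    refine mul_le_mul_of_nonneg_left (h1.trans ?_) (by omega)
    nlinarith [sq_nonneg (P.det * det2 v w)]
  · refine (dot2_le_of_mulVec hP.ne' _).trans ?_
    rw [Matrix.mulVec_mulVec, hK]
    refine mul_le_mul_of_nonneg_left (h2.trans ?_) (by omega)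
    nlinarith [sq_nonneg (P.det * det2 w u)]

end FermatAgent.HM.Dual
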